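/-
Programme T1B (S44), brick NODALGOOD-COMPLETION (helper53), file 1: ring maps inducing an isomorphism
on the fibre `p = 0` (Mathlib only).

`SameFibre φ p` : the ring map `φ : R → R'` induces an isomorphism `R / p ≅ R' / φ p`, in elementary
form (`surj`: every element of `R'` is `φ x + φ p * z`; `inj`: `φ p ∣ φ x → p ∣ x`).

For an ideal `P ∋ p` of `R` the ideal `P.map φ` of `R'` is "the same ideal of the fibre":

* `SameFibre.mem_map_iff`  : `y ∈ P.map φ ↔ ∃ x ∈ P, ∃ z, y = φ x + φ p * z`;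
* `SameFibre.comap_map`    : `(P.map φ).comap φ = P`;
* `SameFibre.map_isPrime`  : `P` prime ⇒ `P.map φ` prime;
* `SameFibre.inf_map`      : `⋂ P i = (p)` ⇒ `⋂ (P i).map φ = (φ p)`;
* `SameFibre.comap_compat` : compatibility with a commutative square of ring maps.

Tensor form: for `W`-algebras `O → O'` with `SameFibre (algebraMap O O') π` and any `W`-algebra `B`,
`SameFibre (O ⊗[W] B → O' ⊗[W] B) (π ⊗ 1)` (`sameFibre_tensor`, right exactness of `⊗`), and
`π' ⊗ 1` is regular on `O' ⊗[W] B` if `π'` is regular on `O'` and `B` is flat over `W`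
(`regular_tensor`).

Local form: `sameFibre_of_local` (local rings with principal maximal ideals `(π)`, `(φ π)` and a
surjective map of residue fields).
-/
import Mathlib

set_option autoImplicit false
set_option linter.unusedSectionVars false

open TensorProduct

namespace Fermat.Agent.T1B.NodalBC53.Fibre

/-- `φ : R → R'` induces an isomorphism `R / p ≅ R' / φ p` (elementary form). -/
structure SameFibre {R R' : Type*} [CommRing R] [CommRing R'] (φ : R →+* R') (p : R) : Prop where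
  surj : ∀ y : R', ∃ x : R, ∃ z : R', y = φ x + φ p * z
  inj : ∀ x : R, (∃ z : R', φ x = φ p * z) → ∃ w : R, x = p * w

namespace SameFibre

section OneRing

variable {R R' : Type*} [CommRing R] [CommRing R'] {φ : R →+* R'} {p : R}

theorem mem_map_of (P : Ideal R) (hp : p ∈ P) {y : R'} {x : R} (hx : x ∈ P) {z : R'}
    (hy : y = φ x + φ p * z) : y ∈ P.map φ := by
  rw [hy]
  exact (P.map φ).add_mem (Ideal.mem_map_of_mem φ hx)
    ((P.map φ).mul_mem_right _ (Ideal.mem_map_of_mem φ hp))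

theorem mem_map_iff (h : SameFibre φ p) (P : Ideal R) (hp : p ∈ P) {y : R'} :
    y ∈ P.map φ ↔ ∃ x ∈ P, ∃ z : R', y = φ x + φ p * z := by
  constructor
  · intro hy
    rw [Ideal.map] at hy
    induction hy using Submodule.span_induction with
    | mem y hy =>
      obtain ⟨x, hx, rfl⟩ := hy
      exact ⟨x, hx, 0, by rw [mul_zero, add_zero]⟩
    | zero => exact ⟨0, P.zero_mem, 0, by rw [map_zero, mul_zero, add_zero]⟩
    | add y₁ y₂ _ _ h₁ h₂ =>
      obtain ⟨x₁, hx₁, z₁, rfl⟩ := h₁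
      obtain ⟨x₂, hx₂, z₂, rfl⟩ := h₂
      exact ⟨x₁ + x₂, P.add_mem hx₁ hx₂, z₁ + z₂, by rw [map_add]; ring⟩
    | smul r y _ hy =>
      obtain ⟨x, hx, z, rfl⟩ := hy
      obtain ⟨a, b, rfl⟩ := h.surj r
      refine ⟨a * x, P.mul_mem_left a hx, b * φ x + (φ a + φ p * b) * z, ?_⟩
      rw [smul_eq_mul, map_mul]
      ring
  · rintro ⟨x, hx, z, hy⟩
    exact mem_map_of P hp hx hy

/-- `φ p ∈ P.map φ`. -/
theorem map_mem (P : Ideal R) (hp : p ∈ P) : φ p ∈ P.map φ := Ideal.mem_map_of_mem φ hp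

theorem map_mem_iff (h : SameFibre φ p) (P : Ideal R) (hp : p ∈ P) {x : R} :
    φ x ∈ P.map φ ↔ x ∈ P := by
  constructor
  · intro hx
    obtain ⟨x₀, hx₀, z, hz⟩ := (h.mem_map_iff P hp).1 hx
    obtain ⟨w, hw⟩ := h.inj (x - x₀) ⟨z, by rw [map_sub, hz]; ring⟩
    have : x = x₀ + p * w := by rw [← hw]; ring
    rw [this]
    exact P.add_mem hx₀ (P.mul_mem_right _ hp)
  · exact fun hx => Ideal.mem_map_of_mem φ hx

/-- **The lifted ideal restricts to the original one.** -/
theorem comap_map (h : SameFibre φ p) (P : Ideal R) (hp : p ∈ P) : (P.map φ).comap φ = P := by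
  ext x
  rw [Ideal.mem_comap]
  exact h.map_mem_iff P hp

/-- membership in the lifted ideal only depends on the class modulo `φ p`. -/
theorem mem_map_iff_of_eq (h : SameFibre φ p) (P : Ideal R) (hp : p ∈ P) {y : R'} {x : R} {z : R'}
    (hy : y = φ x + φ p * z) : y ∈ P.map φ ↔ x ∈ P := by
  rw [← h.map_mem_iff P hp, hy]
  constructor
  · intro h1
    have h2 : φ x = φ x + φ p * z - φ p * z := by ring
    rw [h2]
    exact (P.map φ).sub_mem h1 ((P.map φ).mul_mem_right _ (map_mem P hp))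
  · intro h1
    exact (P.map φ).add_mem h1 ((P.map φ).mul_mem_right _ (map_mem P hp))

/-- **The lifted ideal of a prime is prime.** -/
theorem map_isPrime (h : SameFibre φ p) (P : Ideal R) (hp : p ∈ P) [hP : P.IsPrime] :
    (P.map φ).IsPrime := by
  refine ⟨?_, ?_⟩
  · intro htop
    have h1 : φ 1 ∈ P.map φ := by rw [htop]; exact Submodule.mem_top
    exact hP.ne_top ((Ideal.eq_top_iff_one P).2 ((h.map_mem_iff P hp).1 h1))
  · intro y₁ y₂ hy
    obtain ⟨x₁, z₁, h₁⟩ := h.surj y₁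
    obtain ⟨x₂, z₂, h₂⟩ := h.surj y₂
    have h12 : y₁ * y₂ = φ (x₁ * x₂) + φ p * (φ x₁ * z₂ + z₁ * y₂) := by
      rw [map_mul, h₁, h₂]; ring
    rw [h.mem_map_iff_of_eq P hp h₁, h.mem_map_iff_of_eq P hp h₂]
    exact hP.mem_or_mem ((h.mem_map_iff_of_eq P hp h12).1 hy)

/-- **The fibre is reduced with the same components**: if `⋂ P i = (p)` then
`⋂ (P i).map φ = (φ p)`. -/
theorem inf_map (h : SameFibre φ p) {ι : Type*} (P : ι → Ideal R) (hp : ∀ i, p ∈ P i)
    (hinf : ∀ x : R, (∀ i, x ∈ P i) → ∃ w : R, x = p * w) (y : R')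
    (hy : ∀ i, y ∈ (P i).map φ) : ∃ w : R', y = φ p * w := by
  obtain ⟨x, z, hxz⟩ := h.surj y
  obtain ⟨w, hw⟩ := hinf x (fun i => (h.mem_map_iff_of_eq (P i) (hp i) hxz).1 (hy i))
  exact ⟨φ w + z, by rw [hxz, hw, map_mul]; ring⟩

/-- **Compatibility with restriction maps**: for a commutative square `ψ ∘ α = β ∘ φ`
(`α : R → S`, `β : R' → S'`, `φ : R → R'`, `ψ : S → S'`) with `φ`, `ψ` inducing isomorphisms on
the fibres `p = 0`, `q = 0`, `α p ∈ (q)`: if `Q.comap α = P` then
`(Q.map ψ).comap β = P.map φ`.  (Used with `α`, `β` the restriction maps of a chart, and with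
`α`, `β` the maps between two levels.) -/
theorem comap_compat {S S' : Type*} [CommRing S] [CommRing S'] {ψ : S →+* S'} {q : S}
    (h : SameFibre φ p) (h' : SameFibre ψ q) (α : R →+* S) (β : R' →+* S')
    (hsq : ∀ x, ψ (α x) = β (φ x)) (hpq : ∃ u : S, α p = q * u)
    (P : Ideal R) (Q : Ideal S) (hp : p ∈ P) (hq : q ∈ Q) (hPQ : Q.comap α = P) :
    (Q.map ψ).comap β = P.map φ := by
  ext y
  obtain ⟨x, z, hxz⟩ := h.surj y
  obtain ⟨u, hu⟩ := hpq
  rw [Ideal.mem_comap, h.mem_map_iff_of_eq P hp hxz]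
  have h1 : β y = ψ (α x) + ψ q * (ψ u * β z) := by
    rw [hxz, map_add, map_mul, ← hsq, ← hsq, hu, map_mul, mul_assoc]
  rw [h'.mem_map_iff_of_eq Q hq h1, ← hPQ, Ideal.mem_comap]

end OneRing

end SameFibre

/-! ### Local rings -/

section Local

variable {O O' : Type*} [CommRing O] [CommRing O'] [IsLocalRing O] [IsLocalRing O']

/-- Local rings with principal maximal ideals `(π)`, `(φ π)` and a surjective map of residue
fields have the same fibre `π = 0`. -/
theorem sameFibre_of_local (φ : O →+* O') [IsLocalHom φ] {π : O}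
    (hπ : IsLocalRing.maximalIdeal O = Ideal.span {π})
    (hπ' : IsLocalRing.maximalIdeal O' = Ideal.span {φ π})
    (hres : Function.Surjective (IsLocalRing.ResidueField.map φ)) : SameFibre φ π := by
  refine ⟨?_, ?_⟩
  · intro y
    obtain ⟨xb, hxb⟩ := hres (IsLocalRing.residue O' y)
    obtain ⟨x, rfl⟩ := IsLocalRing.residue_surjective xb
    rw [IsLocalRing.ResidueField.map_residue] at hxb
    have h1 : y - φ x ∈ IsLocalRing.maximalIdeal O' := by
      rw [← IsLocalRing.residue_eq_zero_iff, map_sub, hxb, sub_self]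
    rw [hπ', Ideal.mem_span_singleton'] at h1
    obtain ⟨z, hz⟩ := h1
    exact ⟨x, z, by rw [mul_comm, hz]; ring⟩
  · rintro x ⟨z, hz⟩
    have h1 : φ x ∈ IsLocalRing.maximalIdeal O' := by
      rw [hπ', hz]
      exact Ideal.mul_mem_right _ _ (Ideal.mem_span_singleton_self _)
    have h2 : x ∈ IsLocalRing.maximalIdeal O := by
      rw [IsLocalRing.mem_maximalIdeal, mem_nonunits_iff]
      intro hu
      exact (IsLocalRing.mem_maximalIdeal _).1 h1 (hu.map φ)
    rw [hπ, Ideal.mem_span_singleton'] at h2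
    obtain ⟨w, hw⟩ := h2
    exact ⟨w, by rw [mul_comm, hw]⟩

end Local

/-! ### Tensor products -/

section Tensor

variable (W : Type*) [CommRing W] (O O' : Type*) [CommRing O] [CommRing O'] [Algebra W O]
  [Algebra W O'] [Algebra O O'] [IsScalarTower W O O'] (B : Type*) [CommRing B] [Algebra W B]

/-- The ring map `O ⊗[W] B → O' ⊗[W] B`. -/
noncomputable def tensorMap : O ⊗[W] B →ₐ[O] O' ⊗[W] B :=
  Algebra.TensorProduct.map (IsScalarTower.toAlgHom O O O') (AlgHom.id W B)

@[simp]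
theorem tensorMap_tmul (a : O) (b : B) :
    tensorMap W O O' B (a ⊗ₜ[W] b) = algebraMap O O' a ⊗ₜ[W] b := by
  simp [tensorMap]

variable {W O O' B}

theorem tensor_surj {π : O} (h : SameFibre (algebraMap O O') π) (y : O' ⊗[W] B) :
    ∃ x : O ⊗[W] B, ∃ z : O' ⊗[W] B,
      y = tensorMap W O O' B x + (algebraMap O O' π ⊗ₜ[W] (1 : B)) * z := by
  induction y using TensorProduct.induction_on with
  | zero => exact ⟨0, 0, by rw [map_zero, mul_zero, add_zero]⟩
  | add y₁ y₂ h₁ h₂ =>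
    obtain ⟨x₁, z₁, rfl⟩ := h₁
    obtain ⟨x₂, z₂, rfl⟩ := h₂
    exact ⟨x₁ + x₂, z₁ + z₂, by rw [map_add]; ring⟩
  | tmul a b =>
    obtain ⟨x, z, rfl⟩ := h.surj a
    refine ⟨x ⊗ₜ b, z ⊗ₜ b, ?_⟩
    rw [tensorMap_tmul, Algebra.TensorProduct.tmul_mul_tmul, one_mul, TensorProduct.add_tmul]

theorem tensor_inj {π : O} (h : SameFibre (algebraMap O O') π) (x : O ⊗[W] B)
    (hx : ∃ z : O' ⊗[W] B, tensorMap W O O' B x = (algebraMap O O' π ⊗ₜ[W] (1 : B)) * z) :
    ∃ w : O ⊗[W] B, x = (π ⊗ₜ[W] (1 : B)) * w := by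
  obtain ⟨z, hz⟩ := hx
  set I : Ideal O' := Ideal.span {algebraMap O O' π} with hI
  -- the quotient map `q : O → O' / (π')`
  let q : O →ₐ[O] O' ⧸ I := (Ideal.Quotient.mkₐ O I).comp (IsScalarTower.toAlgHom O O O')
  have hq : ∀ a : O, q a = Ideal.Quotient.mk I (algebraMap O O' a) := fun a => rfl
  have hqsurj : Function.Surjective q := by
    intro yb
    obtain ⟨y, rfl⟩ := Ideal.Quotient.mk_surjective yb
    obtain ⟨a, z, rfl⟩ := h.surj y
    refine ⟨a, ?_⟩
    rw [hq, eq_comm, ← sub_eq_zero, ← map_sub, Ideal.Quotient.eq_zero_iff_mem, hI,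
      Ideal.mem_span_singleton']
    exact ⟨z, by ring⟩
  have hqker : RingHom.ker q = Ideal.span {π} := by
    ext a
    rw [RingHom.mem_ker, hq, Ideal.Quotient.eq_zero_iff_mem, hI, Ideal.mem_span_singleton',
      Ideal.mem_span_singleton']
    constructor
    · rintro ⟨z, hz⟩
      obtain ⟨w, hw⟩ := h.inj a ⟨z, by rw [← hz, mul_comm]⟩
      exact ⟨w, by rw [hw, mul_comm]⟩
    · rintro ⟨w, rfl⟩
      exact ⟨algebraMap O O' w, by rw [map_mul]⟩
  have hker := Algebra.TensorProduct.rTensor_ker (R := W) (S := O) (C := B) q hqsurj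
  -- `q ⊗ id` factors through `O' ⊗ B`
  let m : O' ⊗[W] B →ₐ[O'] (O' ⧸ I) ⊗[W] B :=
    Algebra.TensorProduct.map (Ideal.Quotient.mkₐ O' I) (AlgHom.id W B)
  have hfac : ∀ x : O ⊗[W] B,
      Algebra.TensorProduct.map q (AlgHom.id W B) x = m (tensorMap W O O' B x) := by
    intro x
    induction x using TensorProduct.induction_on with
    | zero => rw [map_zero, map_zero, map_zero]
    | add x₁ x₂ h₁ h₂ => rw [map_add, map_add, map_add, h₁, h₂]
    | tmul a b =>
      rw [tensorMap_tmul]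
      simp only [m, Algebra.TensorProduct.map_tmul, AlgHom.coe_id, id_eq]
      rfl
  have hmem : x ∈ RingHom.ker (Algebra.TensorProduct.map q (AlgHom.id W B)) := by
    rw [RingHom.mem_ker, hfac, hz, map_mul]
    have : m (algebraMap O O' π ⊗ₜ[W] (1 : B)) = 0 := by
      simp only [m, Algebra.TensorProduct.map_tmul, AlgHom.coe_id, id_eq]
      have h0 : (Ideal.Quotient.mkₐ O' I) (algebraMap O O' π) = 0 := by
        rw [Ideal.Quotient.mkₐ_eq_mk, Ideal.Quotient.eq_zero_iff_mem]
        exact Ideal.mem_span_singleton_self _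
      rw [h0, TensorProduct.zero_tmul]
    rw [this, zero_mul]
  rw [hker, hqker, Ideal.map_span, Set.image_singleton, Ideal.mem_span_singleton'] at hmem
  obtain ⟨w, hw⟩ := hmem
  exact ⟨w, by rw [← hw, mul_comm]; rfl⟩

/-- **Tensor form**: `O ⊗[W] B → O' ⊗[W] B` induces an isomorphism on the fibres `π = 0`. -/
theorem sameFibre_tensor {π : O} (h : SameFibre (algebraMap O O') π) :
    SameFibre (tensorMap W O O' B).toRingHom (π ⊗ₜ[W] (1 : B)) := by
  refine ⟨?_, ?_⟩
  · intro y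
    obtain ⟨x, z, hxz⟩ := tensor_surj h y
    refine ⟨x, z, ?_⟩
    rw [hxz]
    simp
  · rintro x ⟨z, hz⟩
    refine tensor_inj h x ⟨z, ?_⟩
    simpa using hz

/-- `π' ⊗ 1` is regular on `O' ⊗[W] B` if `π'` is regular on `O'` and `B` is flat over `W`. -/
theorem regular_tensor [Module.Flat W B] {π' : O'} (hreg : ∀ z : O', π' * z = 0 → z = 0)
    (x : O' ⊗[W] B) (hx : (π' ⊗ₜ[W] (1 : B)) * x = 0) : x = 0 := by
  let μ : O' →ₗ[W] O' := LinearMap.mulLeft W π'
  have hμ : Function.Injective μ := by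
    rw [injective_iff_map_eq_zero]
    intro z hz
    exact hreg z hz
  have hinj := Module.Flat.rTensor_preserves_injective_linearMap (M := B) μ hμ
  have hmul : ∀ x : O' ⊗[W] B, μ.rTensor B x = (π' ⊗ₜ[W] (1 : B)) * x := by
    intro x
    induction x using TensorProduct.induction_on with
    | zero => rw [map_zero, mul_zero]
    | add x₁ x₂ h₁ h₂ => rw [map_add, h₁, h₂, mul_add]
    | tmul a b =>
      rw [LinearMap.rTensor_tmul, Algebra.TensorProduct.tmul_mul_tmul, one_mul]
      rfl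
  apply hinj
  rw [hmul, hx, map_zero]

end Tensor

end Fermat.Agent.T1B.NodalBC53.Fibre
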