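/-
Programme T1B (S44), brick NODALGOOD-COMPLETION (helper53), file 3: ring maps out of the fibre.

For `h : SameFibre φ p` (`φ : R → R'` inducing `R / p ≅ R' / φ p`) and a ring map `f : R → C` with
`f p = 0` (e.g. the restriction to a component of the fibre `p = 0`):

* `SameFibre.lift h f hf : R' →+* C` : the ring map `R' → R' / φ p ≅ R / p → C`;
* `lift_eq` (`y = φ x + φ p * z ⇒ lift y = f x`), `lift_map`, `lift_comp`, `lift_unique`,
  `lift_surjective`, `ker_lift` (`ker (lift f) = (ker f).map φ`).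
-/
import Mathlib
import Fermat.Agent.T1B.NodalBC53.Fibre

set_option autoImplicit false
set_option linter.unusedSectionVars false

namespace Fermat.Agent.T1B.NodalBC53.Fibre

namespace SameFibre

variable {R R' C : Type*} [CommRing R] [CommRing R'] [CommRing C] {φ : R →+* R'} {p : R}

/-- A representative in `R` of the class of `y : R'` modulo `φ p`. -/
noncomputable def rep (h : SameFibre φ p) (y : R') : R := Classical.choose (h.surj y)

theorem rep_spec (h : SameFibre φ p) (y : R') : ∃ z : R', y = φ (h.rep y) + φ p * z :=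
  Classical.choose_spec (h.surj y)

/-- the value of `f` on a representative only depends on the class. -/
theorem map_rep_eq (h : SameFibre φ p) (f : R →+* C) (hf : f p = 0) {y : R'} {x : R} {z : R'}
    (hy : y = φ x + φ p * z) : f (h.rep y) = f x := by
  obtain ⟨z', hz'⟩ := h.rep_spec y
  generalize h.rep y = r at hz' ⊢
  obtain ⟨w, hw⟩ := h.inj (r - x) ⟨z - z', by
    have : φ r = φ x + φ p * z - φ p * z' := by rw [← hy, hz']; ring
    rw [map_sub, this]; ring⟩
  have h1 : r = x + p * w := by rw [← hw]; ring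
  rw [h1, map_add, map_mul, hf, zero_mul, add_zero]

/-- **The ring map `R' → C` induced by `f : R → C` with `f p = 0`.** -/
noncomputable def lift (h : SameFibre φ p) (f : R →+* C) (hf : f p = 0) : R' →+* C where
  toFun y := f (h.rep y)
  map_one' := by
    rw [h.map_rep_eq f hf (x := 1) (z := 0) (by rw [map_one, mul_zero, add_zero]), map_one]
  map_mul' y₁ y₂ := by
    obtain ⟨z₁, h₁⟩ := h.rep_spec y₁
    obtain ⟨z₂, h₂⟩ := h.rep_spec y₂
    have key : y₁ * y₂ =
        φ (h.rep y₁ * h.rep y₂) + φ p * (φ (h.rep y₁) * z₂ + z₁ * y₂) := by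
      generalize h.rep y₁ = r₁ at h₁ ⊢
      generalize h.rep y₂ = r₂ at h₂ ⊢
      rw [map_mul]
      calc y₁ * y₂ = (φ r₁ + φ p * z₁) * y₂ := by rw [← h₁]
        _ = φ r₁ * y₂ + φ p * (z₁ * y₂) := by ring
        _ = φ r₁ * (φ r₂ + φ p * z₂) + φ p * (z₁ * y₂) := by rw [← h₂]
        _ = _ := by ring
    rw [h.map_rep_eq f hf key, map_mul]
  map_zero' := by
    rw [h.map_rep_eq f hf (x := 0) (z := 0) (by rw [map_zero, mul_zero, add_zero]), map_zero]
  map_add' y₁ y₂ := by
    obtain ⟨z₁, h₁⟩ := h.rep_spec y₁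
    obtain ⟨z₂, h₂⟩ := h.rep_spec y₂
    have key : y₁ + y₂ = φ (h.rep y₁ + h.rep y₂) + φ p * (z₁ + z₂) := by
      generalize h.rep y₁ = r₁ at h₁ ⊢
      generalize h.rep y₂ = r₂ at h₂ ⊢
      rw [map_add]
      calc y₁ + y₂ = (φ r₁ + φ p * z₁) + y₂ := by rw [← h₁]
        _ = (φ r₁ + φ p * z₁) + (φ r₂ + φ p * z₂) := by rw [← h₂]
        _ = _ := by ring
    rw [h.map_rep_eq f hf key, map_add]

theorem lift_eq (h : SameFibre φ p) (f : R →+* C) (hf : f p = 0) {y : R'} {x : R} {z : R'}
    (hy : y = φ x + φ p * z) : h.lift f hf y = f x :=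
  h.map_rep_eq f hf hy

@[simp]
theorem lift_map (h : SameFibre φ p) (f : R →+* C) (hf : f p = 0) (x : R) :
    h.lift f hf (φ x) = f x :=
  h.lift_eq f hf (z := 0) (by rw [mul_zero, add_zero])

theorem lift_comp (h : SameFibre φ p) (f : R →+* C) (hf : f p = 0) :
    (h.lift f hf).comp φ = f :=
  RingHom.ext fun x => h.lift_map f hf x

theorem lift_map_p (h : SameFibre φ p) (f : R →+* C) (hf : f p = 0) : h.lift f hf (φ p) = 0 := by
  rw [lift_map, hf]

/-- Ring maps out of `R'` which kill `φ p` are determined by their restriction to `R`. -/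
theorem hom_ext (h : SameFibre φ p) {g₁ g₂ : R' →+* C} (h₁ : g₁ (φ p) = 0) (h₂ : g₂ (φ p) = 0)
    (h12 : ∀ x, g₁ (φ x) = g₂ (φ x)) : g₁ = g₂ := by
  refine RingHom.ext fun y => ?_
  obtain ⟨x, z, rfl⟩ := h.surj y
  rw [map_add, map_add, map_mul, map_mul, h₁, h₂, zero_mul, zero_mul, h12]

theorem lift_unique (h : SameFibre φ p) (f : R →+* C) (hf : f p = 0) (g : R' →+* C)
    (hg : ∀ x, g (φ x) = f x) : g = h.lift f hf := by
  refine h.hom_ext ?_ (h.lift_map_p f hf) fun x => ?_
  · rw [hg, hf]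
  · rw [hg, lift_map]

theorem lift_surjective (h : SameFibre φ p) (f : R →+* C) (hf : f p = 0)
    (hs : Function.Surjective f) : Function.Surjective (h.lift f hf) := fun c => by
  obtain ⟨x, rfl⟩ := hs c
  exact ⟨φ x, h.lift_map f hf x⟩

/-- **The kernel of the lift is the lifted kernel.** -/
theorem ker_lift (h : SameFibre φ p) (f : R →+* C) (hf : f p = 0) :
    RingHom.ker (h.lift f hf) = (RingHom.ker f).map φ := by
  ext y
  obtain ⟨x, z, hxz⟩ := h.surj y
  rw [RingHom.mem_ker, h.lift_eq f hf hxz, h.mem_map_iff_of_eq (RingHom.ker f) hf hxz,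
    RingHom.mem_ker]

end SameFibre

end Fermat.Agent.T1B.NodalBC53.Fibre
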