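/-
Programme T1B (S44), brick NODALGOOD-COMPLETION (helper53), file 2: TRANSFER OF `RedN3.NodalGood`
ALONG A BASE EXTENSION WITH THE SAME SPECIAL FIBRE.

`c0 : TwoChart W B0 B1 B01` the hub, `O → O'` `W`-algebras (`[Algebra O O'] [IsScalarTower W O O']`,
the vocabulary of `BaseChange75`), `π : O`, `π' = algebraMap O O' π`, such that `O / π ≅ O' / π'`
(`Fibre.SameFibre (algebraMap O O') π`; for local rings: `Fibre.sameFibre_of_local`), `π'` regular on
`O'`, and the charts `B_j` flat over `W`.  Then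

  `transfer : NodalGood (c0.baseChange O) π ι → NodalGood (c0.baseChange O') (algebraMap O O' π) ι`

with `P_j' i = (P_j i).map (algebraMap (O ⊗ B_j) (O' ⊗ B_j))` (`transfer_P0`, ... are `rfl`), which
restricts to `P_j i` (`comap_transfer_P0`, ...).  No model theory over `O'`: all fields are
statements about the special fibre, except `reg_j` = flatness.

Typical use: `O = AK A L` (a number field DVR, where `NodalFacts23.nodalGood_of_equiv` /
`NodalBC23.Good.nodalGood_baseChange` apply) and `O'` = its completion, or the ring of integers of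
`ℚ_p · ι(L)`.

* `NodalGood.of_associated` : change of the uniformiser by a unit.
-/
import Mathlib
import Fermat.Agent.T1B.RedN3.Iface
import Fermat.Agent.T1B.NodalBC53.Fibre

set_option autoImplicit false
set_option linter.unusedSectionVars false

universe u

open TensorProduct

namespace Fermat.Agent.T1B.NodalBC53.Transfer

open Fermat.Agent.Jac Fermat.Agent.Jac.BaseChange75 Fermat.Agent.T1B.RedN3
open Fermat.Agent.T1B.NodalBC53.Fibre
open scoped Fermat.Agent.Jac.BaseChange75

/-! ### Change of the uniformiser by a unit -/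

section Assoc

variable {A R0 R1 R01 : Type u} [CommRing A] [CommRing R0] [CommRing R1] [CommRing R01]
  [Algebra A R0] [Algebra A R1] [Algebra A R01] [Algebra R0 R01] [Algebra R1 R01]
  [IsScalarTower A R0 R01] [IsScalarTower A R1 R01]

/-- `NodalGood` does not depend on the choice of the generator of `(p)`. -/
def NodalGood.of_associated {c : TwoChart A R0 R1 R01} {p p' : A} {ι : Type}
    (hg : NodalGood c p ι) (u : Aˣ) (hu : p' = u * p) : NodalGood c p' ι where
  reg0 := fun x hx => by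
    have h1 : algebraMap A R0 p * (algebraMap A R0 u * x) = 0 := by
      rw [← mul_assoc, ← map_mul, mul_comm p, ← hu]; exact hx
    have h2 := hg.reg0 _ h1
    have h3 : algebraMap A R0 (↑u⁻¹ : A) * (algebraMap A R0 u * x) = x := by
      rw [← mul_assoc, ← map_mul, Units.inv_mul, map_one, one_mul]
    rw [← h3, h2, mul_zero]
  reg1 := fun x hx => by
    have h1 : algebraMap A R1 p * (algebraMap A R1 u * x) = 0 := by
      rw [← mul_assoc, ← map_mul, mul_comm p, ← hu]; exact hx
    have h2 := hg.reg1 _ h1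
    have h3 : algebraMap A R1 (↑u⁻¹ : A) * (algebraMap A R1 u * x) = x := by
      rw [← mul_assoc, ← map_mul, Units.inv_mul, map_one, one_mul]
    rw [← h3, h2, mul_zero]
  reg01 := fun x hx => by
    have h1 : algebraMap A R01 p * (algebraMap A R01 u * x) = 0 := by
      rw [← mul_assoc, ← map_mul, mul_comm p, ← hu]; exact hx
    have h2 := hg.reg01 _ h1
    have h3 : algebraMap A R01 (↑u⁻¹ : A) * (algebraMap A R01 u * x) = x := by
      rw [← mul_assoc, ← map_mul, Units.inv_mul, map_one, one_mul]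
    rw [← h3, h2, mul_zero]
  P0 := hg.P0
  P1 := hg.P1
  Q := hg.Q
  prime0 := hg.prime0
  prime1 := hg.prime1
  primeQ := hg.primeQ
  comap0 := hg.comap0
  comap1 := hg.comap1
  mem0 := fun i => by
    rw [hu, map_mul]
    exact Ideal.mul_mem_left _ _ (hg.mem0 i)
  mem1 := fun i => by
    rw [hu, map_mul]
    exact Ideal.mul_mem_left _ _ (hg.mem1 i)
  inf0 := fun x hx => by
    obtain ⟨y, hy⟩ := hg.inf0 x hx
    refine ⟨algebraMap A R0 (↑u⁻¹ : A) * y, ?_⟩
    rw [hy, hu, ← mul_assoc, ← map_mul, mul_comm (u : A), mul_assoc, Units.mul_inv, mul_one]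
  inf1 := fun x hx => by
    obtain ⟨y, hy⟩ := hg.inf1 x hx
    refine ⟨algebraMap A R1 (↑u⁻¹ : A) * y, ?_⟩
    rw [hy, hu, ← mul_assoc, ← map_mul, mul_comm (u : A), mul_assoc, Units.mul_inv, mul_one]

end Assoc

/-! ### The transfer -/

section Main

variable {W B0 B1 B01 : Type u} [CommRing W] [CommRing B0] [CommRing B1] [CommRing B01]
  [Algebra W B0] [Algebra W B1] [Algebra W B01] [Algebra B0 B01] [Algebra B1 B01]
  [IsScalarTower W B0 B01] [IsScalarTower W B1 B01]
  (c0 : TwoChart W B0 B1 B01)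
  {O O' : Type u} [CommRing O] [CommRing O'] [Algebra W O] [Algebra W O'] [Algebra O O']
  [IsScalarTower W O O']

section Lemmas

variable (B : Type u) [CommRing B] [Algebra W B]

theorem algebraMap_left_eq_tensorMap :
    algebraMap (O ⊗[W] B) (O' ⊗[W] B) = (tensorMap W O O' B).toRingHom := rfl

theorem algebraMap_tensor (a : O) : algebraMap O (O ⊗[W] B) a = a ⊗ₜ[W] (1 : B) := rfl

/-- `O ⊗ B → O' ⊗ B` (the `algLeft` algebra map) induces an isomorphism on the fibres `π = 0`. -/
theorem sameFibre_left {π : O} (h : SameFibre (algebraMap O O') π) :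
    SameFibre (algebraMap (O ⊗[W] B) (O' ⊗[W] B)) (algebraMap O (O ⊗[W] B) π) :=
  sameFibre_tensor h

theorem algebraMap_left_algebraMap (a : O) :
    algebraMap (O ⊗[W] B) (O' ⊗[W] B) (algebraMap O (O ⊗[W] B) a) =
      algebraMap O' (O' ⊗[W] B) (algebraMap O O' a) := by
  rw [algebraMap_tensor, algebraMap_left_tmul]
  rfl

theorem regular_left [Module.Flat W B] {π' : O'} (hreg : ∀ z : O', π' * z = 0 → z = 0)
    (x : O' ⊗[W] B) (hx : algebraMap O' (O' ⊗[W] B) π' * x = 0) : x = 0 :=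
  regular_tensor hreg x hx

end Lemmas

variable [Module.Flat W B0] [Module.Flat W B1] [Module.Flat W B01]
  {π : O} {ι : Type}

/-- **Transfer of `NodalGood` along `O → O'` with `O / π ≅ O' / π'`.** -/
noncomputable def transfer (h : SameFibre (algebraMap O O') π)
    (hreg : ∀ z : O', algebraMap O O' π * z = 0 → z = 0)
    (hg : NodalGood (c0.baseChange O) π ι) :
    NodalGood (c0.baseChange O') (algebraMap O O' π) ι where
  reg0 := regular_left B0 hreg
  reg1 := regular_left B1 hreg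
  reg01 := regular_left B01 hreg
  P0 := fun i => (hg.P0 i).map (algebraMap (O ⊗[W] B0) (O' ⊗[W] B0))
  P1 := fun i => (hg.P1 i).map (algebraMap (O ⊗[W] B1) (O' ⊗[W] B1))
  Q := fun i => (hg.Q i).map (algebraMap (O ⊗[W] B01) (O' ⊗[W] B01))
  prime0 := fun i =>
    haveI := hg.prime0 i
    (sameFibre_left B0 h).map_isPrime (hg.P0 i) (hg.mem0 i)
  prime1 := fun i =>
    haveI := hg.prime1 i
    (sameFibre_left B1 h).map_isPrime (hg.P1 i) (hg.mem1 i)
  primeQ := fun i =>
    haveI := hg.primeQ i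
    (sameFibre_left B01 h).map_isPrime (hg.Q i) (by
      have h1 : algebraMap O (O ⊗[W] B0) π ∈ (hg.Q i).comap
          (algebraMap (O ⊗[W] B0) (O ⊗[W] B01)) := by
        rw [hg.comap0 i]; exact hg.mem0 i
      rw [Ideal.mem_comap, ← IsScalarTower.algebraMap_apply] at h1
      exact h1)
  comap0 := fun i => by
    have hq : algebraMap O (O ⊗[W] B01) π ∈ hg.Q i := by
      have h1 : algebraMap O (O ⊗[W] B0) π ∈ (hg.Q i).comap
          (algebraMap (O ⊗[W] B0) (O ⊗[W] B01)) := by
        rw [hg.comap0 i]; exact hg.mem0 i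
      rw [Ideal.mem_comap, ← IsScalarTower.algebraMap_apply] at h1
      exact h1
    refine SameFibre.comap_compat (sameFibre_left B0 h) (sameFibre_left B01 h)
      (algebraMap (O ⊗[W] B0) (O ⊗[W] B01)) (algebraMap (O' ⊗[W] B0) (O' ⊗[W] B01))
      (fun x => ?_) ?_ (hg.P0 i) (hg.Q i) (hg.mem0 i) hq (hg.comap0 i)
    · exact (RingHom.congr_fun (square_comm W O O' B0 B01) x).symm
    · exact ⟨1, by
        rw [mul_one]
        exact (IsScalarTower.algebraMap_apply O (O ⊗[W] B0) (O ⊗[W] B01) π).symm⟩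
  comap1 := fun i => by
    have hq : algebraMap O (O ⊗[W] B01) π ∈ hg.Q i := by
      have h1 : algebraMap O (O ⊗[W] B1) π ∈ (hg.Q i).comap
          (algebraMap (O ⊗[W] B1) (O ⊗[W] B01)) := by
        rw [hg.comap1 i]; exact hg.mem1 i
      rw [Ideal.mem_comap, ← IsScalarTower.algebraMap_apply] at h1
      exact h1
    refine SameFibre.comap_compat (sameFibre_left B1 h) (sameFibre_left B01 h)
      (algebraMap (O ⊗[W] B1) (O ⊗[W] B01)) (algebraMap (O' ⊗[W] B1) (O' ⊗[W] B01))
      (fun x => ?_) ?_ (hg.P1 i) (hg.Q i) (hg.mem1 i) hq (hg.comap1 i)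
    · exact (RingHom.congr_fun (square_comm W O O' B1 B01) x).symm
    · exact ⟨1, by
        rw [mul_one]
        exact (IsScalarTower.algebraMap_apply O (O ⊗[W] B1) (O ⊗[W] B01) π).symm⟩
  mem0 := fun i => by
    rw [← algebraMap_left_algebraMap]
    exact Ideal.mem_map_of_mem _ (hg.mem0 i)
  mem1 := fun i => by
    rw [← algebraMap_left_algebraMap]
    exact Ideal.mem_map_of_mem _ (hg.mem1 i)
  inf0 := fun x hx => by
    obtain ⟨w, hw⟩ := (sameFibre_left B0 h).inf_map hg.P0 hg.mem0 hg.inf0 x hx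
    exact ⟨w, by rw [hw, algebraMap_left_algebraMap]⟩
  inf1 := fun x hx => by
    obtain ⟨w, hw⟩ := (sameFibre_left B1 h).inf_map hg.P1 hg.mem1 hg.inf1 x hx
    exact ⟨w, by rw [hw, algebraMap_left_algebraMap]⟩

variable (h : SameFibre (algebraMap O O') π)
  (hreg : ∀ z : O', algebraMap O O' π * z = 0 → z = 0)
  (hg : NodalGood (c0.baseChange O) π ι)

@[simp] theorem transfer_P0 (i : ι) :
    (transfer c0 h hreg hg).P0 i = (hg.P0 i).map (algebraMap (O ⊗[W] B0) (O' ⊗[W] B0)) := rfl

@[simp] theorem transfer_P1 (i : ι) :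
    (transfer c0 h hreg hg).P1 i = (hg.P1 i).map (algebraMap (O ⊗[W] B1) (O' ⊗[W] B1)) := rfl

@[simp] theorem transfer_Q (i : ι) :
    (transfer c0 h hreg hg).Q i = (hg.Q i).map (algebraMap (O ⊗[W] B01) (O' ⊗[W] B01)) := rfl

theorem mem_Q (i : ι) : algebraMap O (O ⊗[W] B01) π ∈ hg.Q i := by
  have h1 : algebraMap O (O ⊗[W] B0) π ∈ (hg.Q i).comap
      (algebraMap (O ⊗[W] B0) (O ⊗[W] B01)) := by
    rw [hg.comap0 i]; exact hg.mem0 i
  rw [Ideal.mem_comap, ← IsScalarTower.algebraMap_apply] at h1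
  exact h1

/-- the components of the special fibre over `O'` restrict to those over `O`. -/
theorem comap_transfer_P0 (i : ι) :
    ((transfer c0 h hreg hg).P0 i).comap (algebraMap (O ⊗[W] B0) (O' ⊗[W] B0)) = hg.P0 i :=
  (sameFibre_left B0 h).comap_map (hg.P0 i) (hg.mem0 i)

theorem comap_transfer_P1 (i : ι) :
    ((transfer c0 h hreg hg).P1 i).comap (algebraMap (O ⊗[W] B1) (O' ⊗[W] B1)) = hg.P1 i :=
  (sameFibre_left B1 h).comap_map (hg.P1 i) (hg.mem1 i)

theorem comap_transfer_Q (i : ι) :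
    ((transfer c0 h hreg hg).Q i).comap (algebraMap (O ⊗[W] B01) (O' ⊗[W] B01)) = hg.Q i :=
  (sameFibre_left B01 h).comap_map (hg.Q i) (mem_Q c0 hg i)

theorem mem_transfer_P0_iff (i : ι) (y : O' ⊗[W] B0) :
    y ∈ (transfer c0 h hreg hg).P0 i ↔ ∃ x ∈ hg.P0 i, ∃ z : O' ⊗[W] B0,
      y = algebraMap (O ⊗[W] B0) (O' ⊗[W] B0) x +
        algebraMap O' (O' ⊗[W] B0) (algebraMap O O' π) * z := by
  rw [transfer_P0, (sameFibre_left B0 h).mem_map_iff (hg.P0 i) (hg.mem0 i),
    algebraMap_left_algebraMap]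

theorem mem_transfer_P1_iff (i : ι) (y : O' ⊗[W] B1) :
    y ∈ (transfer c0 h hreg hg).P1 i ↔ ∃ x ∈ hg.P1 i, ∃ z : O' ⊗[W] B1,
      y = algebraMap (O ⊗[W] B1) (O' ⊗[W] B1) x +
        algebraMap O' (O' ⊗[W] B1) (algebraMap O O' π) * z := by
  rw [transfer_P1, (sameFibre_left B1 h).mem_map_iff (hg.P1 i) (hg.mem1 i),
    algebraMap_left_algebraMap]

theorem mem_transfer_Q_iff (i : ι) (y : O' ⊗[W] B01) :
    y ∈ (transfer c0 h hreg hg).Q i ↔ ∃ x ∈ hg.Q i, ∃ z : O' ⊗[W] B01,
      y = algebraMap (O ⊗[W] B01) (O' ⊗[W] B01) x +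
        algebraMap O' (O' ⊗[W] B01) (algebraMap O O' π) * z := by
  rw [transfer_Q, (sameFibre_left B01 h).mem_map_iff (hg.Q i) (mem_Q c0 hg i),
    algebraMap_left_algebraMap]

/-- Variant with a named uniformiser `π'` of `O'`. -/
noncomputable def transfer' {π' : O'} (hπ' : algebraMap O O' π = π')
    (h : SameFibre (algebraMap O O') π) (hreg : ∀ z : O', π' * z = 0 → z = 0)
    (hg : NodalGood (c0.baseChange O) π ι) : NodalGood (c0.baseChange O') π' ι :=
  hπ' ▸ transfer c0 h (hπ' ▸ hreg) hg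

end Main

end Fermat.Agent.T1B.NodalBC53.Transfer
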