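/-
Programme T1B (S44), brick NODALGOOD-COMPLETION (helper53), file 4: TRANSFER OF THE COMPONENTS, OF
CONNECTEDNESS AND OF `P00` / `Balanced` (helper60's `Bal60`) ALONG `O → O'` WITH THE SAME SPECIAL FIBRE.

Abstract part (two two-chart rings `c`, `c'` with ring maps `R_j → R_j'` inducing isomorphisms on the
fibres):

* `compTransfer X …`    : a component `X : Bal60.Comp c P0 P1 K` of the fibre of `c` gives the component
                          of the fibre of `c'` on the SAME rings `C0 C1 C01` over the same field `K`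
                          (`R_j' → R_j'/p' ≅ R_j/p → C_j`), cut out by `P_j.map`;
* `compBCTransfer X …`  : `Bal60.CompBC X (compTransfer X …)` (all comparison maps are identities).

Hub part (`c = c0.baseChange O`, `c' = c0.baseChange O'`, `hg' = Transfer.transfer c0 h hreg hg`):

* `adj_transfer`, `connected_transfer` : `Bal60.Adj`, `Bal60.Connected` for `hg'`;
* `compHub X i`         : the components for `hg'`;  `compBCHub`;
* `balanced_transfer`   : `RedN3.Balanced c0 O' hg' (P00 hg' (compHub …))`;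
* `map_mem_P00_transfer`, `Mdeg_map_transfer`, `mem_P00_iff_map` : `PicX.map c0 O O'` and `P00`;
* `extInjective00_transfer` : `RedN3.ExtInjective00 c0 O' L' (P00 hg' …)`.
-/
import Mathlib
import Fermat.Agent.T1B.Bal60.MapP00
import Fermat.Agent.T1B.Bal60.Hub
import Fermat.Agent.T1B.RedN3.ExtInj00
import Fermat.Agent.T1B.NodalBC53.Lift
import Fermat.Agent.T1B.NodalBC53.Transfer

set_option autoImplicit false
set_option linter.unusedSectionVars false
set_option linter.style.haveILetI false

universe u

open TensorProduct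

namespace Fermat.Agent.T1B.NodalBC53.Bal

open Fermat.Agent.Jac Fermat.Agent.Jac.LineOps39 Fermat.Agent.Jac.JGroup85Pic
  Fermat.Agent.Jac.BaseChange75 Fermat.Agent.T1B.RedN3 Fermat.Agent.T1B.Bal60
open Fermat.Agent.T1B.NodalBC53.Fibre Fermat.Agent.T1B.NodalBC53.Transfer
open scoped Fermat.Agent.Jac.BaseChange75

/-! ### Abstract part -/

section Abstract

variable {A R0 R1 R01 A' R0' R1' R01' : Type u}
  [CommRing A] [CommRing R0] [CommRing R1] [CommRing R01]
  [Algebra A R0] [Algebra A R1] [Algebra A R01] [Algebra R0 R01] [Algebra R1 R01]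
  [IsScalarTower A R0 R01] [IsScalarTower A R1 R01]
  [CommRing A'] [CommRing R0'] [CommRing R1'] [CommRing R01']
  [Algebra A' R0'] [Algebra A' R1'] [Algebra A' R01'] [Algebra R0' R01'] [Algebra R1' R01']
  [IsScalarTower A' R0' R01'] [IsScalarTower A' R1' R01']
  [Algebra R0 R0'] [Algebra R1 R1'] [Algebra R01 R01']
  (ha0 : (algebraMap R0' R01').comp (algebraMap R0 R0') =
    (algebraMap R01 R01').comp (algebraMap R0 R01))
  (ha1 : (algebraMap R1' R01').comp (algebraMap R1 R1') =
    (algebraMap R01 R01').comp (algebraMap R1 R01))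
  {c : TwoChart A R0 R1 R01} (c' : TwoChart A' R0' R1' R01')
  {K : Type u} [Field K] {P0 : Ideal R0} {P1 : Ideal R1}
  (X : Comp c P0 P1 K)
  {p0 : R0} {p1 : R1} {p01 : R01}
  (h0 : SameFibre (algebraMap R0 R0') p0) (h1 : SameFibre (algebraMap R1 R1') p1)
  (h01 : SameFibre (algebraMap R01 R01') p01)

theorem algebraMap_p0 (hp0 : p0 ∈ P0) : algebraMap R0 X.C0 p0 = 0 := by
  have : p0 ∈ RingHom.ker (algebraMap R0 X.C0) := by rw [X.ker0]; exact hp0
  exact this

theorem algebraMap_p1 (hp1 : p1 ∈ P1) : algebraMap R1 X.C1 p1 = 0 := by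
  have : p1 ∈ RingHom.ker (algebraMap R1 X.C1) := by rw [X.ker1]; exact hp1
  exact this

/-- The ring map `R0' → C0`. -/
noncomputable def lift0 (hp0 : p0 ∈ P0) : R0' →+* X.C0 :=
  h0.lift (algebraMap R0 X.C0) (algebraMap_p0 X hp0)

/-- The ring map `R1' → C1`. -/
noncomputable def lift1 (hp1 : p1 ∈ P1) : R1' →+* X.C1 :=
  h1.lift (algebraMap R1 X.C1) (algebraMap_p1 X hp1)

/-- The ring map `R01' → C01`. -/
noncomputable def lift01 (hp01 : algebraMap R01 X.C01 p01 = 0) : R01' →+* X.C01 :=
  h01.lift (algebraMap R01 X.C01) hp01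

include ha0 in
theorem lift_hc0 (hp0 : p0 ∈ P0) (hp01 : algebraMap R01 X.C01 p01 = 0) :
    (algebraMap X.C0 X.C01).comp (lift0 X h0 hp0) =
      (lift01 X h01 hp01).comp (algebraMap R0' R01') := by
  have hsq : ∀ x : R0, algebraMap R0' R01' (algebraMap R0 R0' x) =
      algebraMap R01 R01' (algebraMap R0 R01 x) := fun x => RingHom.congr_fun ha0 x
  have hX : ∀ x : R0, algebraMap X.C0 X.C01 (algebraMap R0 X.C0 x) =
      algebraMap R01 X.C01 (algebraMap R0 R01 x) := fun x => RingHom.congr_fun X.hc0 x
  refine h0.hom_ext ?_ ?_ fun x => ?_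
  · rw [RingHom.comp_apply, lift0, SameFibre.lift_map, algebraMap_p0 X hp0, map_zero]
  · rw [RingHom.comp_apply, hsq, lift01, SameFibre.lift_map, ← hX, algebraMap_p0 X hp0, map_zero]
  · rw [RingHom.comp_apply, RingHom.comp_apply, hsq, lift0, lift01, SameFibre.lift_map,
      SameFibre.lift_map, hX]

include ha1 in
theorem lift_hc1 (hp1 : p1 ∈ P1) (hp01 : algebraMap R01 X.C01 p01 = 0) :
    (algebraMap X.C1 X.C01).comp (lift1 X h1 hp1) =
      (lift01 X h01 hp01).comp (algebraMap R1' R01') := by
  have hsq : ∀ x : R1, algebraMap R1' R01' (algebraMap R1 R1' x) =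
      algebraMap R01 R01' (algebraMap R1 R01 x) := fun x => RingHom.congr_fun ha1 x
  have hX : ∀ x : R1, algebraMap X.C1 X.C01 (algebraMap R1 X.C1 x) =
      algebraMap R01 X.C01 (algebraMap R1 R01 x) := fun x => RingHom.congr_fun X.hc1 x
  refine h1.hom_ext ?_ ?_ fun x => ?_
  · rw [RingHom.comp_apply, lift1, SameFibre.lift_map, algebraMap_p1 X hp1, map_zero]
  · rw [RingHom.comp_apply, hsq, lift01, SameFibre.lift_map, ← hX, algebraMap_p1 X hp1, map_zero]
  · rw [RingHom.comp_apply, RingHom.comp_apply, hsq, lift1, lift01, SameFibre.lift_map,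
      SameFibre.lift_map, hX]

/-- **Transfer of a component**: the same curve `(C0, C1, C01)` over `K`, now as a component of the
fibre of `c'`. -/
noncomputable def compTransfer (hp0 : p0 ∈ P0) (hp1 : p1 ∈ P1)
    (hp01 : algebraMap R01 X.C01 p01 = 0) :
    Comp c' (P0.map (algebraMap R0 R0')) (P1.map (algebraMap R1 R1')) K :=
  letI : Algebra R0' X.C0 := (lift0 X h0 hp0).toAlgebra
  letI : Algebra R1' X.C1 := (lift1 X h1 hp1).toAlgebra
  letI : Algebra R01' X.C01 := (lift01 X h01 hp01).toAlgebra
  { C0 := X.C0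
    C1 := X.C1
    C01 := X.C01
    chart := X.chart
    fpl := X.fpl
    hc0 := lift_hc0 ha0 X h0 h01 hp0 hp01
    hc1 := lift_hc1 ha1 X h1 h01 hp1 hp01
    surj0 := h0.lift_surjective _ (algebraMap_p0 X hp0) X.surj0
    surj1 := h1.lift_surjective _ (algebraMap_p1 X hp1) X.surj1
    ker0 := by
      show RingHom.ker (h0.lift (algebraMap R0 X.C0) (algebraMap_p0 X hp0)) = _
      rw [h0.ker_lift, X.ker0]
    ker1 := by
      show RingHom.ker (h1.lift (algebraMap R1 X.C1) (algebraMap_p1 X hp1)) = _
      rw [h1.ker_lift, X.ker1] }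

theorem isPushout_self (K C : Type*) [CommRing K] [CommRing C] [Algebra K C] :
    Algebra.IsPushout K K C C :=
  ⟨IsBaseChange.ofEquiv (LinearEquiv.refl K C)⟩

/-- **The transferred component is the (trivial) base change of the original one.** -/
noncomputable def compBCTransfer (hp0 : p0 ∈ P0) (hp1 : p1 ∈ P1)
    (hp01 : algebraMap R01 X.C01 p01 = 0) :
    CompBC X (compTransfer ha0 ha1 c' X h0 h1 h01 hp0 hp1 hp01) :=
  { alg0 := Algebra.id X.C0
    alg1 := Algebra.id X.C1
    alg01 := Algebra.id X.C01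
    algK0 := X.algK0
    algK1 := X.algK1
    algK01 := X.algK01
    towerK0 := inferInstanceAs (IsScalarTower K K X.C0)
    towerK1 := inferInstanceAs (IsScalarTower K K X.C1)
    towerK01 := inferInstanceAs (IsScalarTower K K X.C01)
    towerC0 := inferInstanceAs (IsScalarTower K X.C0 X.C0)
    towerC1 := inferInstanceAs (IsScalarTower K X.C1 X.C1)
    towerC01 := inferInstanceAs (IsScalarTower K X.C01 X.C01)
    push0 := isPushout_self K X.C0
    push1 := isPushout_self K X.C1
    push01 := isPushout_self K X.C01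
    he0 := rfl
    he1 := rfl
    hs0 := (h0.lift_comp _ (algebraMap_p0 X hp0)).symm
    hs1 := (h1.lift_comp _ (algebraMap_p1 X hp1)).symm
    hs01 := (h01.lift_comp _ hp01).symm }

end Abstract

/-! ### Hub part -/

section Hub

open Fermat.Agent.T1.RedIface75 Fermat.Agent.T1.Red68

variable {W B0 B1 B01 : Type u} [CommRing W] [CommRing B0] [CommRing B1] [CommRing B01]
  [Algebra W B0] [Algebra W B1] [Algebra W B01] [Algebra B0 B01] [Algebra B1 B01]
  [IsScalarTower W B0 B01] [IsScalarTower W B1 B01]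
  (c0 : TwoChart W B0 B1 B01)
  {O O' : Type u} [CommRing O] [CommRing O'] [Algebra W O] [Algebra W O'] [Algebra O O']
  [IsScalarTower W O O']
  [Module.Flat W B0] [Module.Flat W B1] [Module.Flat W B01]
  {π : O} {ι : Type}
  (h : SameFibre (algebraMap O O') π)
  (hreg : ∀ z : O', algebraMap O O' π * z = 0 → z = 0)
  (hg : NodalGood (c0.baseChange O) π ι)

/-- an ideal containing `π` whose lift is the unit ideal is the unit ideal. -/
theorem eq_top_of_map_eq_top (h : SameFibre (algebraMap O O') π) {B : Type u} [CommRing B]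
    [Algebra W B] (J : Ideal (O ⊗[W] B)) (hJ : algebraMap O (O ⊗[W] B) π ∈ J)
    (htop : J.map (algebraMap (O ⊗[W] B) (O' ⊗[W] B)) = ⊤) : J = ⊤ := by
  rw [← (sameFibre_left B h).comap_map J hJ, htop, Ideal.comap_top]

/-- **Adjacency of components transfers.** -/
theorem adj_transfer {i i' : ι} (hadj : Adj hg i i') : Adj (transfer c0 h hreg hg) i i' := by
  rcases hadj with hadj | hadj
  · left
    intro htop
    apply hadj
    rw [transfer_P0, transfer_P0, ← Ideal.map_sup] at htop
    exact eq_top_of_map_eq_top h _ (Ideal.mem_sup_left (hg.mem0 i)) htop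
  · right
    intro htop
    apply hadj
    rw [transfer_P1, transfer_P1, ← Ideal.map_sup] at htop
    exact eq_top_of_map_eq_top h _ (Ideal.mem_sup_left (hg.mem1 i)) htop

/-- **Connectedness of the special fibre transfers.** -/
theorem connected_transfer (hconn : Connected hg) : Connected (transfer c0 h hreg hg) :=
  fun i i' => Relation.ReflTransGen.mono (fun _ _ hadj => adj_transfer c0 h hreg hg hadj) i i'
    (hconn i i')

variable {K : Type u} [Field K] (X : ∀ i, Comp (c0.baseChange O) (hg.P0 i) (hg.P1 i) K)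

theorem algebraMap_C01_pi (i : ι) :
    algebraMap (O ⊗[W] B01) (X i).C01 (algebraMap O (O ⊗[W] B01) π) = 0 := by
  rw [IsScalarTower.algebraMap_apply O (O ⊗[W] B0) (O ⊗[W] B01)]
  have h1 := RingHom.congr_fun (X i).hc0 (algebraMap O (O ⊗[W] B0) π)
  simp only [RingHom.comp_apply] at h1
  rw [← h1, algebraMap_p0 (X i) (hg.mem0 i), map_zero]

/-- **The components of the special fibre over `O'`**: the same curves over the same field. -/
noncomputable def compHub (i : ι) :
    Comp (c0.baseChange O') ((transfer c0 h hreg hg).P0 i) ((transfer c0 h hreg hg).P1 i) K :=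
  compTransfer (square_comm W O O' B0 B01) (square_comm W O O' B1 B01) (c0.baseChange O') (X i)
    (sameFibre_left B0 h) (sameFibre_left B1 h) (sameFibre_left B01 h) (hg.mem0 i) (hg.mem1 i)
    (algebraMap_C01_pi c0 hg X i)

/-- the comparison data between the components over `O` and over `O'`. -/
noncomputable def compBCHub (i : ι) : CompBC (X i) (compHub c0 h hreg hg X i) :=
  compBCTransfer (square_comm W O O' B0 B01) (square_comm W O O' B1 B01) (c0.baseChange O') (X i)
    (sameFibre_left B0 h) (sameFibre_left B1 h) (sameFibre_left B01 h) (hg.mem0 i) (hg.mem1 i)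
    (algebraMap_C01_pi c0 hg X i)

/-- **F4-d over `O'`**: the multidegree-zero subgroup is balanced. -/
theorem balanced_transfer (hconn : Connected hg) :
    Balanced c0 O' (transfer c0 h hreg hg)
      (P00 (transfer c0 h hreg hg) (compHub c0 h hreg hg X)) :=
  balanced c0 O' _ (connected_transfer c0 h hreg hg hconn) _

/-- The multidegree of `PicX.map c0 O O' x`. -/
theorem Mdeg_map_transfer (x : PicX c0 O) (i : ι) :
    Mdeg (transfer c0 h hreg hg) (compHub c0 h hreg hg X) (PicX.map c0 O O' x) i =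
      Mdeg hg X x i :=
  Mdeg_map c0 O O' hg (transfer c0 h hreg hg) X (compHub c0 h hreg hg X) id
    (compBCHub c0 h hreg hg X) x i

/-- **`P00` over `O'` restricts to `P00` over `O`.** -/
theorem map_mem_P00_iff (x : PicX c0 O) :
    PicX.map c0 O O' x ∈ P00 (transfer c0 h hreg hg) (compHub c0 h hreg hg X) ↔
      x ∈ P00 hg X := by
  rw [P00_eq_ker, P00_eq_ker, MonoidHom.mem_ker, MonoidHom.mem_ker]
  constructor
  · intro hx
    funext i
    rw [← Mdeg_map_transfer c0 h hreg hg X x i, hx]
  · intro hx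
    funext i
    rw [Mdeg_map_transfer c0 h hreg hg X x i, hx]

/-- **The hypothesis `hPP` of `RedN3.Shell`.** -/
theorem map_mem_P00_transfer :
    ∀ x ∈ P00 hg X, PicX.map c0 O O' x ∈ P00 (transfer c0 h hreg hg) (compHub c0 h hreg hg X) :=
  fun x hx => (map_mem_P00_iff c0 h hreg hg X x).2 hx

/-- **`ExtInjective00` over `O'`.** -/
theorem extInjective00_transfer [IsDomain O'] [IsDiscreteValuationRing O'] [Nonempty ι]
    (L' : Type u) [Field L'] [Algebra W L'] [Algebra O' L'] [IsScalarTower W O' L']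
    [IsFractionRing O' L'] (hπ' : Irreducible (algebraMap O O' π))
    (hH0 : H0Const (c0.baseChange O')) (hconn : Connected hg) :
    ExtInjective00 c0 O' L' (P00 (transfer c0 h hreg hg) (compHub c0 h hreg hg X)) :=
  extInjective00 c0 O' L' hπ' _ hH0 _ (balanced_transfer c0 h hreg hg X hconn)

/-- **`J¹ ≤ P00` over `O'`.** -/
theorem J1_le_P00_transfer [IsDomain O'] [IsDiscreteValuationRing O']
    (hπ' : IsLocalRing.maximalIdeal O' = Ideal.span {algebraMap O O' π}) :
    J1 c0 O' ≤ P00 (transfer c0 h hreg hg) (compHub c0 h hreg hg X) :=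
  J1_le_P00 c0 O' _ _ hπ'

end Hub

end Fermat.Agent.T1B.NodalBC53.Bal
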