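/-
Programme T1B (S44), brick NODALGOOD-COMPLETION (helper53), file 5: THE CONCRETE LEVELS.

`A = padicPlace p`, `ι = padicEmbedding p`, `L ⊂ ℚ̄` a field, `O_L = AK A L = Wb p L`,
`E ⊂ ℚ̄_p` a level containing `ι L` in which `ι L` is DENSE (`DenseIn p L E`; e.g.
`E = LocInj13.localField p L = ℚ_p(ι L)`: `denseIn_localField`), `O_E = intSubring p E`.
Then `O_L → O_E` (`LocalBase.toO`) induces an isomorphism modulo any `π ≠ 0`
(`sameFibre_level`), and `NodalGood` passes from `O_L` to `O_E`: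

  `nodalGood_level : NodalGood (c0.baseChange ↥(AK A L)) π ι → NodalGood (c0.baseChange O_E) (toO hL π) ι`

(algebra structures: `HubInst98.algAK A h` on `AK A L`, `LocalBase.algWO` on `O_E`, over
`W = AK A K`, `K ≤ L`).  Together with `Bal.lean` this gives `Balanced`, `P00`-functoriality and
`ExtInjective00` over `O_E`.
-/
import Mathlib
import Fermat.Agent.PT.BR.LocInj13
import Fermat.Agent.T1B.Local66.LocalBase
import Fermat.Agent.T1B.NodalBC53.Transfer

set_option autoImplicit false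
set_option linter.unusedSectionVars false
set_option linter.style.haveILetI false

open Fermat.Agent.TW.B5.Iface Fermat.Agent.RED.Interface4 Fermat.Agent.T1.HubInst98
open Fermat.Agent.T1.LocModel46 Fermat.Agent.T1.IntSub47
open Fermat.Agent.T1B.Local66.LocalBase Fermat.Agent.PT.BR.LocInj13
open Fermat.Agent.T1B.NodalBC53.Fibre

noncomputable section

namespace Fermat.Agent.T1B.NodalBC53.Level

variable (p : ℕ) [Fact p.Prime]

/-! ### Density of `ι L` in `ℚ_p(ι L)` -/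

/-- `ι L` is dense in `E`. -/
def DenseIn (L : IntermediateField ℚ Qbar) (E : IntermediateField ℚ_[p] (Kbar p)) : Prop :=
  ∀ y ∈ E, ∀ ε : ℝ, 0 < ε → ∃ x : L, ‖y - iotaK p L x‖ < ε

theorem exists_rat_near (a : ℚ_[p]) (ε : ℝ) (hε : 0 < ε) :
    ∃ r : ℚ, ‖algebraMap ℚ_[p] (Kbar p) a - algebraMap ℚ (Kbar p) r‖ < ε := by
  obtain ⟨r, hr⟩ := Padic.rat_dense p a hε
  refine ⟨r, ?_⟩
  have h1 : algebraMap ℚ (Kbar p) r = algebraMap ℚ_[p] (Kbar p) (r : ℚ_[p]) := by
    rw [IsScalarTower.algebraMap_apply ℚ ℚ_[p] (Kbar p)]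
    rfl
  rw [h1, ← map_sub, norm_algebraMap']
  exact hr

/-- **`ι L` is dense in `ℚ_p(ι L)`.** -/
theorem denseIn_localField (L : IntermediateField ℚ Qbar) : DenseIn p L (localField p L) := by
  intro y hy
  have halg : ∀ x ∈ padicEmbedding p '' (L : Set Qbar), IsAlgebraic ℚ_[p] x :=
    fun x _ => Algebra.IsAlgebraic.isAlgebraic x
  have hy' : y ∈ Algebra.adjoin ℚ_[p] (padicEmbedding p '' (L : Set Qbar)) := by
    rw [← IntermediateField.adjoin_toSubalgebra_of_isAlgebraic halg]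
    exact hy
  clear hy
  induction hy' using Algebra.adjoin_induction with
  | mem y hy =>
    obtain ⟨x, hx, rfl⟩ := hy
    intro ε hε
    exact ⟨⟨x, hx⟩, by rw [iotaK_apply, sub_self, norm_zero]; exact hε⟩
  | algebraMap a =>
    intro ε hε
    obtain ⟨r, hr⟩ := exists_rat_near p a ε hε
    refine ⟨algebraMap ℚ L r, ?_⟩
    have : iotaK p L (algebraMap ℚ L r) = algebraMap ℚ (Kbar p) r := by
      rw [iotaK_apply]
      exact (padicEmbedding p).commutes r
    rw [this]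
    exact hr
  | add y₁ y₂ _ _ h₁ h₂ =>
    intro ε hε
    obtain ⟨x₁, hx₁⟩ := h₁ (ε / 2) (half_pos hε)
    obtain ⟨x₂, hx₂⟩ := h₂ (ε / 2) (half_pos hε)
    refine ⟨x₁ + x₂, ?_⟩
    have : y₁ + y₂ - iotaK p L (x₁ + x₂) = (y₁ - iotaK p L x₁) + (y₂ - iotaK p L x₂) := by
      rw [map_add]; ring
    rw [this]
    calc ‖(y₁ - iotaK p L x₁) + (y₂ - iotaK p L x₂)‖
        ≤ ‖y₁ - iotaK p L x₁‖ + ‖y₂ - iotaK p L x₂‖ := norm_add_le _ _
      _ < ε / 2 + ε / 2 := add_lt_add hx₁ hx₂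
      _ = ε := add_halves ε
  | mul y₁ y₂ _ _ h₁ h₂ =>
    intro ε hε
    have hpos1 : 0 < ‖y₁‖ + 1 := by positivity
    obtain ⟨x₂, hx₂⟩ := h₂ (min (ε / (2 * (‖y₁‖ + 1))) 1)
      (lt_min (div_pos hε (by positivity)) one_pos)
    have hx₂n : ‖iotaK p L x₂‖ ≤ ‖y₂‖ + 1 := by
      have h1 : iotaK p L x₂ = y₂ - (y₂ - iotaK p L x₂) := by ring
      rw [h1]
      calc ‖y₂ - (y₂ - iotaK p L x₂)‖ ≤ ‖y₂‖ + ‖y₂ - iotaK p L x₂‖ := norm_sub_le _ _
        _ ≤ ‖y₂‖ + 1 := by
          have := (lt_of_lt_of_le hx₂ (min_le_right _ _)).le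
          linarith
    have hpos2 : 0 < ‖y₂‖ + 2 := by positivity
    obtain ⟨x₁, hx₁⟩ := h₁ (ε / (2 * (‖y₂‖ + 2))) (div_pos hε (by positivity))
    refine ⟨x₁ * x₂, ?_⟩
    have h3 : y₁ * y₂ - iotaK p L (x₁ * x₂) =
        y₁ * (y₂ - iotaK p L x₂) + (y₁ - iotaK p L x₁) * iotaK p L x₂ := by
      rw [map_mul]; ring
    rw [h3]
    have hA : ‖y₁ * (y₂ - iotaK p L x₂)‖ < ε / 2 := by
      rw [norm_mul]
      have h4 : ‖y₂ - iotaK p L x₂‖ < ε / (2 * (‖y₁‖ + 1)) :=
        lt_of_lt_of_le hx₂ (min_le_left _ _)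
      calc ‖y₁‖ * ‖y₂ - iotaK p L x₂‖ ≤ (‖y₁‖ + 1) * ‖y₂ - iotaK p L x₂‖ := by
            apply mul_le_mul_of_nonneg_right _ (norm_nonneg _)
            linarith
        _ < (‖y₁‖ + 1) * (ε / (2 * (‖y₁‖ + 1))) := mul_lt_mul_of_pos_left h4 hpos1
        _ = ε / 2 := by field_simp
    have hB : ‖(y₁ - iotaK p L x₁) * iotaK p L x₂‖ < ε / 2 := by
      rw [norm_mul]
      calc ‖y₁ - iotaK p L x₁‖ * ‖iotaK p L x₂‖
          ≤ ‖y₁ - iotaK p L x₁‖ * (‖y₂‖ + 1) :=
            mul_le_mul_of_nonneg_left hx₂n (norm_nonneg _)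
        _ ≤ ‖y₁ - iotaK p L x₁‖ * (‖y₂‖ + 2) := by
            apply mul_le_mul_of_nonneg_left _ (norm_nonneg _)
            linarith
        _ < ε / (2 * (‖y₂‖ + 2)) * (‖y₂‖ + 2) := mul_lt_mul_of_pos_right hx₁ hpos2
        _ = ε / 2 := by field_simp
    calc ‖y₁ * (y₂ - iotaK p L x₂) + (y₁ - iotaK p L x₁) * iotaK p L x₂‖
        ≤ ‖y₁ * (y₂ - iotaK p L x₂)‖ + ‖(y₁ - iotaK p L x₁) * iotaK p L x₂‖ := norm_add_le _ _
      _ < ε / 2 + ε / 2 := add_lt_add hA hB
      _ = ε := add_halves ε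

theorem isLevel_localField (L : IntermediateField ℚ Qbar) : IsLevel p L (localField p L) :=
  fun x => padicEmbedding_mem_localField p x.2

/-! ### `O_L → O_E` induces an isomorphism modulo `π` -/

section SameFibre

variable {p}
variable {L : IntermediateField ℚ Qbar} {E : IntermediateField ℚ_[p] (Kbar p)}

theorem norm_iotaW_pos {π : Wb p L} (hπ : π ≠ 0) : 0 < ‖iotaW p L π‖ :=
  norm_pos_iff.2 fun h0 => hπ (iotaW_injective p L (by rw [h0, map_zero]))

/-- **`O_L → O_E` induces an isomorphism modulo `π ≠ 0`** when `ι L` is dense in `E`. -/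
theorem sameFibre_level (hL : IsLevel p L E) (hd : DenseIn p L E) {π : Wb p L} (hπ : π ≠ 0) :
    SameFibre (toO hL) π := by
  have hπn : 0 < ‖iotaW p L π‖ := norm_iotaW_pos hπ
  have hπ1 : ‖iotaW p L π‖ ≤ 1 := norm_iotaW_le_one p L π
  refine ⟨?_, ?_⟩
  · intro y
    obtain ⟨x, hx⟩ := hd (y : Kbar p) y.2.1 _ hπn
    have hxn : ‖iotaK p L x‖ ≤ 1 := by
      have h1 : iotaK p L x = (y : Kbar p) + -((y : Kbar p) - iotaK p L x) := by ring
      rw [h1]
      refine (PadicAlgCl.isNonarchimedean p _ _).trans (max_le y.2.2 ?_)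
      rw [norm_neg]
      exact hx.le.trans hπ1
    have hxA : x ∈ AK (padicPlace p) L := (norm_iota_jL_le_one_iff p x).1 hxn
    have hzE : ((y : Kbar p) - iotaK p L x) / iotaW p L π ∈ E :=
      E.div_mem (E.sub_mem y.2.1 (hL x)) (hL (π : ↥L))
    have hzn : ‖((y : Kbar p) - iotaK p L x) / iotaW p L π‖ ≤ 1 := by
      rw [norm_div]
      exact (div_le_one hπn).2 hx.le
    refine ⟨⟨x, hxA⟩, ⟨_, hzE, hzn⟩, Subtype.ext ?_⟩
    show (y : Kbar p) = iotaK p L x + iotaW p L π * (((y : Kbar p) - iotaK p L x) / iotaW p L π)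
    have hne : iotaW p L π ≠ 0 := norm_pos_iff.1 hπn
    field_simp
    ring
  · rintro x ⟨z, hz⟩
    have h1 : iotaW p L x = iotaW p L π * (z : Kbar p) :=
      congrArg (fun t : ↥(intSubring p E) => (t : Kbar p)) hz
    have hπL : (π : ↥L) ≠ 0 := fun h0 => hπ (Subtype.ext h0)
    have hw : ‖iotaK p L ((x : ↥L) / (π : ↥L))‖ ≤ 1 := by
      have h2 : iotaK p L ((x : ↥L) / (π : ↥L)) = (z : Kbar p) := by
        rw [map_div₀]
        show iotaW p L x / iotaW p L π = _
        rw [h1, mul_div_cancel_left₀ _ (norm_pos_iff.1 (norm_iotaW_pos hπ))]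
      rw [h2]
      exact z.2.2
    refine ⟨⟨(x : ↥L) / (π : ↥L), (norm_iota_jL_le_one_iff p _).1 hw⟩, Subtype.ext ?_⟩
    show (x : ↥L) = (π : ↥L) * ((x : ↥L) / (π : ↥L))
    rw [mul_div_cancel₀ _ hπL]

theorem regular_level (hL : IsLevel p L E) {π : Wb p L} (hπ : π ≠ 0)
    (z : ↥(intSubring p E)) (hz : toO hL π * z = 0) : z = 0 := by
  have h1 : toO hL π ≠ 0 := by
    intro h0
    have h2 : iotaW p L π = 0 := congrArg (fun t : ↥(intSubring p E) => (t : Kbar p)) h0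
    exact (norm_iotaW_pos hπ).ne' (by rw [h2, norm_zero])
  exact (mul_eq_zero.1 hz).resolve_left h1

end SameFibre

/-! ### `NodalGood` over `O_E` -/

section Good

open TensorProduct Fermat.Agent.Jac Fermat.Agent.Jac.BaseChange75 Fermat.Agent.T1B.RedN3
open Fermat.Agent.T1B.NodalBC53.Transfer
open scoped Fermat.Agent.Jac.BaseChange75

variable {p}
variable {K L : IntermediateField ℚ Qbar} {E : IntermediateField ℚ_[p] (Kbar p)}

/-- The tower `W = O_K → O_L → O_E`. -/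
theorem tower_W_OL_OE (h : K ≤ L) (hL : IsLevel p L E) :
    letI := algAK (padicPlace p) h
    letI := algWO hL
    letI := algWO (fun x : K => hL (IntermediateField.inclusion h x))
    IsScalarTower (Wb p K) (Wb p L) ↥(intSubring p E) := by
  letI := algAK (padicPlace p) h
  letI := algWO hL
  letI := algWO (fun x : K => hL (IntermediateField.inclusion h x))
  exact IsScalarTower.of_algebraMap_eq' rfl

variable {B0 B1 B01 : Type} [CommRing B0] [CommRing B1] [CommRing B01]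
  [Algebra (Wb p K) B0] [Algebra (Wb p K) B1] [Algebra (Wb p K) B01] [Algebra B0 B01]
  [Algebra B1 B01] [IsScalarTower (Wb p K) B0 B01] [IsScalarTower (Wb p K) B1 B01]
  [Module.Flat (Wb p K) B0] [Module.Flat (Wb p K) B1] [Module.Flat (Wb p K) B01]

/-- **`NodalGood` over the complete level `O_E`** from `NodalGood` over the number field level
`O_L = AK A L`, `ι L` dense in `E`. -/
def nodalGood_level (c0 : TwoChart (Wb p K) B0 B1 B01) (h : K ≤ L) (hL : IsLevel p L E)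
    (hd : DenseIn p L E) {π : Wb p L} (hπ : π ≠ 0) {ι : Type}
    (hg : letI := algAK (padicPlace p) h
      NodalGood (c0.baseChange (Wb p L)) π ι) :
    letI := algWO (fun x : K => hL (IntermediateField.inclusion h x))
    NodalGood (c0.baseChange ↥(intSubring p E)) (toO hL π) ι :=
  letI := algAK (padicPlace p) h
  letI := algWO hL
  letI := algWO (fun x : K => hL (IntermediateField.inclusion h x))
  haveI := tower_W_OL_OE h hL
  transfer c0 (sameFibre_level hL hd hπ) (regular_level hL hπ) hg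

end Good

end Fermat.Agent.T1B.NodalBC53.Level
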