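/-
Programme T1B (S44), brick NODALGOOD-COMPLETION (helper53), file 6: THE TOWER OF COMPLETE LEVELS.

A commutative square of base rings

      O₁ ──→ O₂            (number field levels, e.g. `AK A L → AK A L'`)
      │       │
      ↓       ↓
      Ô₁ ──→ Ô₂            (complete levels, e.g. `O_E → O_E'`)

with `SameFibre` on the vertical maps.  The comparison data between the two number field levels
pass to the complete levels:

* `Ideal` identities (abstract, Mathlib only): `map_sup_square`;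
* `compBCSquare` : `Bal60.CompBC X X' → Bal60.CompBC (compTransfer X) (compTransfer X')`
  (abstract two-chart rings);
* hub forms: `transfer_P0_sup`, `transfer_P1_sup`, `transfer_Q_sup` (helper23's identities
  `P_j' = P_j.map ⊔ (π')` pass from `(O₁, O₂)` to `(Ô₁, Ô₂)`), `comap_transfer_P0_square` … ,
  `compBCHubSquare`, and `map_mem_P00_square` : the hypothesis `hPP` of `RedN3.Shell` for `Ô₁ → Ô₂`.
-/
import Mathlib
import Fermat.Agent.T1B.NodalBC53.Bal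

set_option autoImplicit false
set_option linter.unusedSectionVars false
set_option linter.style.haveILetI false

universe u

open TensorProduct

namespace Fermat.Agent.T1B.NodalBC53.Tower

open Fermat.Agent.Jac Fermat.Agent.Jac.LineOps39 Fermat.Agent.Jac.JGroup85Pic
  Fermat.Agent.Jac.BaseChange75 Fermat.Agent.T1B.RedN3 Fermat.Agent.T1B.Bal60
open Fermat.Agent.T1B.NodalBC53.Fibre Fermat.Agent.T1B.NodalBC53.Transfer
  Fermat.Agent.T1B.NodalBC53.Bal
open scoped Fermat.Agent.Jac.BaseChange75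

/-! ### Ideals in a commutative square -/

section Ideals

variable {R₁ R₂ S₁ S₂ : Type*} [CommRing R₁] [CommRing R₂] [CommRing S₁] [CommRing S₂]
  (a : R₁ →+* R₂) (φ₁ : R₁ →+* S₁) (φ₂ : R₂ →+* S₂) (b : S₁ →+* S₂)
  (hsq : ∀ x, b (φ₁ x) = φ₂ (a x))

include hsq in
/-- The identity `P₂ = P₁.map a ⊔ (p₂)` passes to the images in a commutative square. -/
theorem map_sup_square {P₁ : Ideal R₁} {P₂ : Ideal R₂} {p₂ : R₂}
    (hP : P₂ = P₁.map a ⊔ Ideal.span {p₂}) :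
    P₂.map φ₂ = (P₁.map φ₁).map b ⊔ Ideal.span {φ₂ p₂} := by
  have hcomp : b.comp φ₁ = φ₂.comp a := RingHom.ext hsq
  rw [hP, Ideal.map_sup, Ideal.map_map, Ideal.map_map, Ideal.map_span, Set.image_singleton, hcomp]

end Ideals

/-! ### Components in a commutative square of two-chart rings -/

section Abstract

variable {A R0 R1 R01 A' R0' R1' R01' : Type u}
  [CommRing A] [CommRing R0] [CommRing R1] [CommRing R01]
  [Algebra A R0] [Algebra A R1] [Algebra A R01] [Algebra R0 R01] [Algebra R1 R01]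
  [IsScalarTower A R0 R01] [IsScalarTower A R1 R01]
  [CommRing A'] [CommRing R0'] [CommRing R1'] [CommRing R01']
  [Algebra A' R0'] [Algebra A' R1'] [Algebra A' R01'] [Algebra R0' R01'] [Algebra R1' R01']
  [IsScalarTower A' R0' R01'] [IsScalarTower A' R1' R01']
  [Algebra R0 R0'] [Algebra R1 R1'] [Algebra R01 R01']
  {Â S0 S1 S01 Â' S0' S1' S01' : Type u}
  [CommRing Â] [CommRing S0] [CommRing S1] [CommRing S01]
  [Algebra Â S0] [Algebra Â S1] [Algebra Â S01] [Algebra S0 S01] [Algebra S1 S01]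
  [IsScalarTower Â S0 S01] [IsScalarTower Â S1 S01]
  [CommRing Â'] [CommRing S0'] [CommRing S1'] [CommRing S01']
  [Algebra Â' S0'] [Algebra Â' S1'] [Algebra Â' S01'] [Algebra S0' S01'] [Algebra S1' S01']
  [IsScalarTower Â' S0' S01'] [IsScalarTower Â' S1' S01']
  [Algebra S0 S0'] [Algebra S1 S1'] [Algebra S01 S01']
  [Algebra R0 S0] [Algebra R1 S1] [Algebra R01 S01]
  [Algebra R0' S0'] [Algebra R1' S1'] [Algebra R01' S01']
  (hb0 : (algebraMap S0 S01).comp (algebraMap R0 S0) =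
    (algebraMap R01 S01).comp (algebraMap R0 R01))
  (hb1 : (algebraMap S1 S01).comp (algebraMap R1 S1) =
    (algebraMap R01 S01).comp (algebraMap R1 R01))
  (hb0' : (algebraMap S0' S01').comp (algebraMap R0' S0') =
    (algebraMap R01' S01').comp (algebraMap R0' R01'))
  (hb1' : (algebraMap S1' S01').comp (algebraMap R1' S1') =
    (algebraMap R01' S01').comp (algebraMap R1' R01'))
  (hsq0 : ∀ x : R0, algebraMap S0 S0' (algebraMap R0 S0 x) =
    algebraMap R0' S0' (algebraMap R0 R0' x))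
  (hsq1 : ∀ x : R1, algebraMap S1 S1' (algebraMap R1 S1 x) =
    algebraMap R1' S1' (algebraMap R1 R1' x))
  (hsq01 : ∀ x : R01, algebraMap S01 S01' (algebraMap R01 S01 x) =
    algebraMap R01' S01' (algebraMap R01 R01' x))
  {c : TwoChart A R0 R1 R01} {c' : TwoChart A' R0' R1' R01'}
  (ĉ : TwoChart Â S0 S1 S01) (ĉ' : TwoChart Â' S0' S1' S01')
  {K K' : Type u} [Field K] [Field K'] [Algebra K K']
  {P0 : Ideal R0} {P1 : Ideal R1} {P0' : Ideal R0'} {P1' : Ideal R1'}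
  (X : Comp c P0 P1 K) (X' : Comp c' P0' P1' K')
  {p0 : R0} {p1 : R1} {p01 : R01} {p0' : R0'} {p1' : R1'} {p01' : R01'}
  (h0 : SameFibre (algebraMap R0 S0) p0) (h1 : SameFibre (algebraMap R1 S1) p1)
  (h01 : SameFibre (algebraMap R01 S01) p01)
  (h0' : SameFibre (algebraMap R0' S0') p0') (h1' : SameFibre (algebraMap R1' S1') p1')
  (h01' : SameFibre (algebraMap R01' S01') p01')

/-- **The comparison data between two components pass to their transfers** in a commutative square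
of two-chart rings. -/
noncomputable def compBCSquare (bc : CompBC X X')
    (hp0 : p0 ∈ P0) (hp1 : p1 ∈ P1) (hp01 : algebraMap R01 X.C01 p01 = 0)
    (hp0' : p0' ∈ P0') (hp1' : p1' ∈ P1') (hp01' : algebraMap R01' X'.C01 p01' = 0) :
    CompBC (compTransfer hb0 hb1 ĉ X h0 h1 h01 hp0 hp1 hp01)
      (compTransfer hb0' hb1' ĉ' X' h0' h1' h01' hp0' hp1' hp01') :=
  letI := bc.alg0
  letI := bc.alg1
  letI := bc.alg01
  { alg0 := bc.alg0
    alg1 := bc.alg1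
    alg01 := bc.alg01
    algK0 := bc.algK0
    algK1 := bc.algK1
    algK01 := bc.algK01
    towerK0 := bc.towerK0
    towerK1 := bc.towerK1
    towerK01 := bc.towerK01
    towerC0 := bc.towerC0
    towerC1 := bc.towerC1
    towerC01 := bc.towerC01
    push0 := bc.push0
    push1 := bc.push1
    push01 := bc.push01
    he0 := bc.he0
    he1 := bc.he1
    hs0 := by
      have hX := fun x => RingHom.congr_fun bc.hs0 x
      simp only [RingHom.comp_apply] at hX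
      refine h0.hom_ext ?_ ?_ fun x => ?_
      · show algebraMap X.C0 X'.C0 (lift0 X h0 hp0 (algebraMap R0 S0 p0)) = 0
        rw [lift0, SameFibre.lift_map, algebraMap_p0 X hp0, map_zero]
      · show lift0 X' h0' hp0' (algebraMap S0 S0' (algebraMap R0 S0 p0)) = 0
        rw [hsq0, lift0, SameFibre.lift_map, ← hX, algebraMap_p0 X hp0, map_zero]
      · show algebraMap X.C0 X'.C0 (lift0 X h0 hp0 (algebraMap R0 S0 x)) =
          lift0 X' h0' hp0' (algebraMap S0 S0' (algebraMap R0 S0 x))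
        rw [hsq0, lift0, lift0, SameFibre.lift_map, SameFibre.lift_map, hX]
    hs1 := by
      have hX := fun x => RingHom.congr_fun bc.hs1 x
      simp only [RingHom.comp_apply] at hX
      refine h1.hom_ext ?_ ?_ fun x => ?_
      · show algebraMap X.C1 X'.C1 (lift1 X h1 hp1 (algebraMap R1 S1 p1)) = 0
        rw [lift1, SameFibre.lift_map, algebraMap_p1 X hp1, map_zero]
      · show lift1 X' h1' hp1' (algebraMap S1 S1' (algebraMap R1 S1 p1)) = 0
        rw [hsq1, lift1, SameFibre.lift_map, ← hX, algebraMap_p1 X hp1, map_zero]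
      · show algebraMap X.C1 X'.C1 (lift1 X h1 hp1 (algebraMap R1 S1 x)) =
          lift1 X' h1' hp1' (algebraMap S1 S1' (algebraMap R1 S1 x))
        rw [hsq1, lift1, lift1, SameFibre.lift_map, SameFibre.lift_map, hX]
    hs01 := by
      have hX := fun x => RingHom.congr_fun bc.hs01 x
      simp only [RingHom.comp_apply] at hX
      refine h01.hom_ext ?_ ?_ fun x => ?_
      · show algebraMap X.C01 X'.C01 (lift01 X h01 hp01 (algebraMap R01 S01 p01)) = 0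
        rw [lift01, SameFibre.lift_map, hp01, map_zero]
      · show lift01 X' h01' hp01' (algebraMap S01 S01' (algebraMap R01 S01 p01)) = 0
        rw [hsq01, lift01, SameFibre.lift_map, ← hX, hp01, map_zero]
      · show algebraMap X.C01 X'.C01 (lift01 X h01 hp01 (algebraMap R01 S01 x)) =
          lift01 X' h01' hp01' (algebraMap S01 S01' (algebraMap R01 S01 x))
        rw [hsq01, lift01, lift01, SameFibre.lift_map, SameFibre.lift_map, hX] }

end Abstract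

/-! ### Hub forms -/

section Hub

open Fermat.Agent.T1.RedIface75

variable {W B0 B1 B01 : Type u} [CommRing W] [CommRing B0] [CommRing B1] [CommRing B01]
  [Algebra W B0] [Algebra W B1] [Algebra W B01] [Algebra B0 B01] [Algebra B1 B01]
  [IsScalarTower W B0 B01] [IsScalarTower W B1 B01]
  (c0 : TwoChart W B0 B1 B01)
  {O₁ O₂ Ô₁ Ô₂ : Type u} [CommRing O₁] [CommRing O₂] [CommRing Ô₁] [CommRing Ô₂]
  [Algebra W O₁] [Algebra W O₂] [Algebra W Ô₁] [Algebra W Ô₂]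
  [Algebra O₁ O₂] [Algebra O₁ Ô₁] [Algebra O₂ Ô₂] [Algebra Ô₁ Ô₂]
  [IsScalarTower W O₁ O₂] [IsScalarTower W O₁ Ô₁] [IsScalarTower W O₂ Ô₂]
  [IsScalarTower W Ô₁ Ô₂]
  (hsq : ∀ x : O₁, algebraMap Ô₁ Ô₂ (algebraMap O₁ Ô₁ x) = algebraMap O₂ Ô₂ (algebraMap O₁ O₂ x))

include hsq in
/-- The square of tensor rings commutes. -/
theorem tensor_square (B : Type u) [CommRing B] [Algebra W B] (x : O₁ ⊗[W] B) :
    algebraMap (Ô₁ ⊗[W] B) (Ô₂ ⊗[W] B) (algebraMap (O₁ ⊗[W] B) (Ô₁ ⊗[W] B) x) =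
      algebraMap (O₂ ⊗[W] B) (Ô₂ ⊗[W] B) (algebraMap (O₁ ⊗[W] B) (O₂ ⊗[W] B) x) := by
  induction x using TensorProduct.induction_on with
  | zero => rw [map_zero, map_zero, map_zero, map_zero]
  | add x y hx hy => rw [map_add, map_add, map_add, map_add, hx, hy]
  | tmul a b =>
    rw [algebraMap_left_tmul, algebraMap_left_tmul, algebraMap_left_tmul, algebraMap_left_tmul,
      hsq]

variable [Module.Flat W B0] [Module.Flat W B1] [Module.Flat W B01]
  {π₁ : O₁} {π₂ : O₂} {ι₁ ι₂ : Type}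
  (h₁ : SameFibre (algebraMap O₁ Ô₁) π₁) (h₂ : SameFibre (algebraMap O₂ Ô₂) π₂)
  (hreg₁ : ∀ z : Ô₁, algebraMap O₁ Ô₁ π₁ * z = 0 → z = 0)
  (hreg₂ : ∀ z : Ô₂, algebraMap O₂ Ô₂ π₂ * z = 0 → z = 0)
  (hg₁ : NodalGood (c0.baseChange O₁) π₁ ι₁) (hg₂ : NodalGood (c0.baseChange O₂) π₂ ι₂)

include hsq in
/-- helper23's identity `P0' = P0.map ⊔ (π')` passes to the complete levels. -/
theorem transfer_P0_sup (i₁ : ι₁) (i₂ : ι₂)
    (hP : hg₂.P0 i₂ = (hg₁.P0 i₁).map (algebraMap (O₁ ⊗[W] B0) (O₂ ⊗[W] B0)) ⊔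
      Ideal.span {algebraMap O₂ (O₂ ⊗[W] B0) π₂}) :
    (transfer c0 h₂ hreg₂ hg₂).P0 i₂ =
      ((transfer c0 h₁ hreg₁ hg₁).P0 i₁).map (algebraMap (Ô₁ ⊗[W] B0) (Ô₂ ⊗[W] B0)) ⊔
        Ideal.span {algebraMap Ô₂ (Ô₂ ⊗[W] B0) (algebraMap O₂ Ô₂ π₂)} := by
  rw [transfer_P0, transfer_P0, ← algebraMap_left_algebraMap]
  exact map_sup_square _ _ _ _ (tensor_square hsq B0) hP

include hsq in
theorem transfer_P1_sup (i₁ : ι₁) (i₂ : ι₂)
    (hP : hg₂.P1 i₂ = (hg₁.P1 i₁).map (algebraMap (O₁ ⊗[W] B1) (O₂ ⊗[W] B1)) ⊔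
      Ideal.span {algebraMap O₂ (O₂ ⊗[W] B1) π₂}) :
    (transfer c0 h₂ hreg₂ hg₂).P1 i₂ =
      ((transfer c0 h₁ hreg₁ hg₁).P1 i₁).map (algebraMap (Ô₁ ⊗[W] B1) (Ô₂ ⊗[W] B1)) ⊔
        Ideal.span {algebraMap Ô₂ (Ô₂ ⊗[W] B1) (algebraMap O₂ Ô₂ π₂)} := by
  rw [transfer_P1, transfer_P1, ← algebraMap_left_algebraMap]
  exact map_sup_square _ _ _ _ (tensor_square hsq B1) hP

include hsq in
theorem transfer_Q_sup (i₁ : ι₁) (i₂ : ι₂)
    (hP : hg₂.Q i₂ = (hg₁.Q i₁).map (algebraMap (O₁ ⊗[W] B01) (O₂ ⊗[W] B01)) ⊔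
      Ideal.span {algebraMap O₂ (O₂ ⊗[W] B01) π₂}) :
    (transfer c0 h₂ hreg₂ hg₂).Q i₂ =
      ((transfer c0 h₁ hreg₁ hg₁).Q i₁).map (algebraMap (Ô₁ ⊗[W] B01) (Ô₂ ⊗[W] B01)) ⊔
        Ideal.span {algebraMap Ô₂ (Ô₂ ⊗[W] B01) (algebraMap O₂ Ô₂ π₂)} := by
  rw [transfer_Q, transfer_Q, ← algebraMap_left_algebraMap]
  exact map_sup_square _ _ _ _ (tensor_square hsq B01) hP

variable {K K' : Type u} [Field K] [Field K'] [Algebra K K']
  (X₁ : ∀ i, Comp (c0.baseChange O₁) (hg₁.P0 i) (hg₁.P1 i) K)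
  (X₂ : ∀ i, Comp (c0.baseChange O₂) (hg₂.P0 i) (hg₂.P1 i) K')

/-- **The comparison data between the components over `O₁`, `O₂` pass to `Ô₁`, `Ô₂`.** -/
noncomputable def compBCHubSquare (i₁ : ι₁) (i₂ : ι₂) (bc : CompBC (X₁ i₁) (X₂ i₂)) :
    CompBC (compHub c0 h₁ hreg₁ hg₁ X₁ i₁) (compHub c0 h₂ hreg₂ hg₂ X₂ i₂) :=
  compBCSquare (square_comm W O₁ Ô₁ B0 B01) (square_comm W O₁ Ô₁ B1 B01)
    (square_comm W O₂ Ô₂ B0 B01) (square_comm W O₂ Ô₂ B1 B01)
    (tensor_square hsq B0) (tensor_square hsq B1) (tensor_square hsq B01)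
    (c0.baseChange Ô₁) (c0.baseChange Ô₂) (X₁ i₁) (X₂ i₂)
    (sameFibre_left B0 h₁) (sameFibre_left B1 h₁) (sameFibre_left B01 h₁)
    (sameFibre_left B0 h₂) (sameFibre_left B1 h₂) (sameFibre_left B01 h₂) bc
    (hg₁.mem0 i₁) (hg₁.mem1 i₁) (algebraMap_C01_pi c0 hg₁ X₁ i₁)
    (hg₂.mem0 i₂) (hg₂.mem1 i₂) (algebraMap_C01_pi c0 hg₂ X₂ i₂)

include hsq in
/-- **`hPP` for `Ô₁ → Ô₂`** from the comparison data at the levels `O₁ → O₂`. -/
theorem map_mem_P00_square (f : ι₂ → ι₁) (bc : ∀ i₂, CompBC (X₁ (f i₂)) (X₂ i₂)) :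
    ∀ x ∈ P00 (transfer c0 h₁ hreg₁ hg₁) (compHub c0 h₁ hreg₁ hg₁ X₁),
      PicX.map c0 Ô₁ Ô₂ x ∈ P00 (transfer c0 h₂ hreg₂ hg₂) (compHub c0 h₂ hreg₂ hg₂ X₂) :=
  map_mem_P00 c0 Ô₁ Ô₂ _ _ _ _ f
    (fun i₂ => compBCHubSquare c0 hsq h₁ h₂ hreg₁ hreg₂ hg₁ hg₂ X₁ X₂ (f i₂) i₂ (bc i₂))

include hsq in
/-- The multidegree of `PicX.map c0 Ô₁ Ô₂ x`. -/
theorem Mdeg_map_square (f : ι₂ → ι₁) (bc : ∀ i₂, CompBC (X₁ (f i₂)) (X₂ i₂))
    (x : PicX c0 Ô₁) (i₂ : ι₂) :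
    Mdeg (transfer c0 h₂ hreg₂ hg₂) (compHub c0 h₂ hreg₂ hg₂ X₂) (PicX.map c0 Ô₁ Ô₂ x) i₂ =
      Mdeg (transfer c0 h₁ hreg₁ hg₁) (compHub c0 h₁ hreg₁ hg₁ X₁) x (f i₂) :=
  Mdeg_map c0 Ô₁ Ô₂ _ _ _ _ f
    (fun i₂ => compBCHubSquare c0 hsq h₁ h₂ hreg₁ hreg₂ hg₁ hg₂ X₁ X₂ (f i₂) i₂ (bc i₂)) x i₂

end Hub

end Fermat.Agent.T1B.NodalBC53.Tower
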