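/-
Programme T1B (S44), brick NODALGOOD-COMPLETION (helper53), file 8: THE FAMILY OVER THE LEVELS
(`Local66.Union` v2 vocabulary: `E : NLevel p K`, `L = E.L` a finite normal number field `⊇ K`,
`E.E = ℚ_p(ι L)`, `O_E = intSubring p E.E`).

Input at a level: the number-field-level data over `O_L = AK A L = Wb p L` (`A = padicPlace p`, algebra
structure `algAK A E.leL` over `W = Wb p K`):  `π ≠ 0`, `hg : NodalGood (c0.baseChange (Wb p L)) π ι`,
components `X i : Bal60.Comp …`.

Output over `O_E` (algebra structure `LocalBase.algWO E.lev`, exactly the one of `Union.PicO`):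

* `hgO E hπ hg`     : `NodalGood (c0.baseChange O_E) (toO E.levL π) ι`;
* `XO E hπ hg X i`  : the components;  `P00O E hπ hg X : Subgroup (Union.PicO c0 E)`;
* `connectedO`, `balancedO`, `J1_le_P00O`, `extInjective00O`;
* `toOL_mem_P00O_iff` : a class over `O_L` has multidegree `0` iff its base change to `O_E` has;
* `bcOO_mem_P00O`    : for `E ≤ E'` and comparison data `Bal60.CompBC (X i) (X' i)` at the
  number-field levels, `Union.bcOO c0 hE` maps `P00O E` into `P00O E'`
  (the pairwise form of `Union.Compatible`).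
-/
import Mathlib
import Fermat.Agent.T1B.Local66.Union
import Fermat.Agent.T1B.NodalBC53.Tower
import Fermat.Agent.T1B.NodalBC53.Level

set_option autoImplicit false
set_option linter.unusedSectionVars false
set_option linter.style.haveILetI false
set_option synthInstance.maxHeartbeats 400000
set_option maxHeartbeats 1000000

open Fermat.Agent.TW.B5.Iface Fermat.Agent.RED.Interface4 Fermat.Agent.T1.HubInst98
open Fermat.Agent.T1.LocModel46 Fermat.Agent.T1.IntSub47
open Fermat.Agent.T1B.Local66.LocalBase Fermat.Agent.T1B.Local66.Union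
open Fermat.Agent.PT.BR.LocInj13
open Fermat.Agent.Jac Fermat.Agent.Jac.BaseChange75 Fermat.Agent.T1B.RedN3 Fermat.Agent.T1B.Bal60
open Fermat.Agent.T1.RedIface75 Fermat.Agent.T1.Red68
open Fermat.Agent.T1B.NodalBC53.Fibre Fermat.Agent.T1B.NodalBC53.Transfer
  Fermat.Agent.T1B.NodalBC53.Bal Fermat.Agent.T1B.NodalBC53.Tower Fermat.Agent.T1B.NodalBC53.Level
open scoped Fermat.Agent.Jac.BaseChange75
open scoped TensorProduct

noncomputable section

namespace Fermat.Agent.T1B.NodalBC53.Family

variable {p : ℕ} [Fact p.Prime] {K : IntermediateField ℚ Qbar}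
variable {B0 B1 B01 : Type} [CommRing B0] [CommRing B1] [CommRing B01]
  [Algebra (Wb p K) B0] [Algebra (Wb p K) B1] [Algebra (Wb p K) B01] [Algebra B0 B01]
  [Algebra B1 B01] [IsScalarTower (Wb p K) B0 B01] [IsScalarTower (Wb p K) B1 B01]
  [Module.Flat (Wb p K) B0] [Module.Flat (Wb p K) B1] [Module.Flat (Wb p K) B01]
  (c0 : TwoChart (Wb p K) B0 B1 B01)

/-- `ι L` is dense in `E.E = ℚ_p(ι L)` (`Union` v2.1: `E.E` is a structure field with
`E.hE : E.E = localField p E.L`). -/
theorem denseIn_level (E : NLevel p K) : DenseIn p E.L E.E := by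
  have h := denseIn_localField p E.L
  rw [← E.hE] at h
  exact h

/-! ### One level -/

section One

variable (E : NLevel p K) {π : Wb p E.L} (hπ : π ≠ 0) {ι : Type}
  (hg : letI := algAK (padicPlace p) E.leL
    NodalGood (c0.baseChange (Wb p E.L)) π ι)

include hπ in
/-- `SameFibre` for `O_L → O_E`. -/
theorem sameFibreO : SameFibre (toO E.levL) π :=
  sameFibre_level E.levL (denseIn_level E) hπ

/-- **`NodalGood` over `O_E`.** -/
def hgO :
    letI := algWO E.lev
    NodalGood (c0.baseChange ↥(intSubring p E.E)) (toO E.levL π) ι :=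
  nodalGood_level c0 E.leL E.levL (denseIn_level E) hπ hg

variable {κ : Type} [Field κ]
  (X : letI := algAK (padicPlace p) E.leL
    ∀ i, Comp (c0.baseChange (Wb p E.L)) (hg.P0 i) (hg.P1 i) κ)

/-- **The components over `O_E`.** -/
def XO :
    letI := algWO E.lev
    ∀ i, Comp (c0.baseChange ↥(intSubring p E.E)) ((hgO c0 E hπ hg).P0 i)
      ((hgO c0 E hπ hg).P1 i) κ :=
  letI := algAK (padicPlace p) E.leL
  letI := algWO E.levL
  letI := algWO E.lev
  haveI := tower_W_OL_OE E.leL E.levL
  compHub c0 (sameFibre_level E.levL (denseIn_level E) hπ) (regular_level E.levL hπ) hg X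

/-- **The multidegree-zero subgroup of `Pic X_{O_E}`.** -/
def P00O : Subgroup (PicO c0 E) :=
  letI := algWO E.lev
  P00 (hgO c0 E hπ hg) (XO c0 E hπ hg X)

/-- connectedness of the special fibre over `O_E`. -/
theorem connectedO
    (hconn : letI := algAK (padicPlace p) E.leL
      Connected hg) :
    letI := algWO E.lev
    Connected (hgO c0 E hπ hg) := by
  letI := algAK (padicPlace p) E.leL
  letI := algWO E.levL
  letI := algWO E.lev
  haveI := tower_W_OL_OE E.leL E.levL
  exact connected_transfer c0 (sameFibre_level E.levL (denseIn_level E) hπ)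
    (regular_level E.levL hπ) hg hconn

/-- **`Balanced` over `O_E`.** -/
theorem balancedO
    (hconn : letI := algAK (padicPlace p) E.leL
      Connected hg) :
    letI := algWO E.lev
    Balanced c0 ↥(intSubring p E.E) (hgO c0 E hπ hg) (P00O c0 E hπ hg X) := by
  letI := algAK (padicPlace p) E.leL
  letI := algWO E.levL
  letI := algWO E.lev
  haveI := tower_W_OL_OE E.leL E.levL
  exact balanced_transfer c0 (sameFibre_level E.levL (denseIn_level E) hπ)
    (regular_level E.levL hπ) hg X hconn

/-- **A class over `O_L` has multidegree `0` iff its base change to `O_E` has.** -/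
theorem toOL_mem_P00O_iff
    (x : letI := algAK (padicPlace p) E.leL
      PicX c0 (Wb p E.L)) :
    letI := algAK (padicPlace p) E.leL
    letI := algWO E.levL
    letI := algWO E.lev
    haveI := tower_W_OL_OE E.leL E.levL
    PicX.map c0 (Wb p E.L) ↥(intSubring p E.E) x ∈ P00O c0 E hπ hg X ↔ x ∈ P00 hg X := by
  letI := algAK (padicPlace p) E.leL
  letI := algWO E.levL
  letI := algWO E.lev
  haveI := tower_W_OL_OE E.leL E.levL
  exact map_mem_P00_iff c0 (sameFibre_level E.levL (denseIn_level E) hπ)
    (regular_level E.levL hπ) hg X x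

end One

/-- In a local ring `O'` receiving `O` with the same fibre `π = 0`, where `(π)` is the maximal
ideal of the local ring `O`, the maximal ideal of `O'` is `(φ π)`. -/
theorem maximalIdeal_eq_of_sameFibre {O O' : Type*} [CommRing O] [CommRing O'] [IsLocalRing O]
    [IsLocalRing O'] {φ : O →+* O'} {π : O} (h : SameFibre φ π)
    (hπ : IsLocalRing.maximalIdeal O = Ideal.span {π}) :
    IsLocalRing.maximalIdeal O' = Ideal.span {φ π} := by
  have hπm : π ∈ IsLocalRing.maximalIdeal O := by
    rw [hπ]; exact Ideal.mem_span_singleton_self π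
  have hφπ : ¬ IsUnit (φ π) := by
    intro hu
    obtain ⟨u, hu'⟩ := hu
    obtain ⟨w, hw⟩ := h.inj 1 ⟨(↑u⁻¹ : O'), by rw [map_one, ← hu', Units.mul_inv]⟩
    have h1 : IsUnit π := IsUnit.of_mul_eq_one w hw.symm
    exact (IsLocalRing.mem_maximalIdeal π).1 hπm h1
  ext y
  rw [Ideal.mem_span_singleton', IsLocalRing.mem_maximalIdeal, mem_nonunits_iff]
  constructor
  · intro hy
    obtain ⟨x, z, rfl⟩ := h.surj y
    have hx : x ∈ IsLocalRing.maximalIdeal O := by
      rw [IsLocalRing.mem_maximalIdeal, mem_nonunits_iff]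
      intro hxu
      apply hy
      have h2 : φ π * z ∈ IsLocalRing.maximalIdeal O' :=
        Ideal.mul_mem_right _ _ ((IsLocalRing.mem_maximalIdeal _).2 hφπ)
      have h3 : IsUnit (φ x) := hxu.map φ
      have h4 := IsLocalRing.isUnit_of_mem_nonunits_one_sub_self (a := -(φ π * z) * ↑h3.unit⁻¹)
      by_contra hcon
      have h5 : φ x + φ π * z ∈ IsLocalRing.maximalIdeal O' :=
        (IsLocalRing.mem_maximalIdeal _).2 hcon
      have h6 : φ x ∈ IsLocalRing.maximalIdeal O' := by
        have : φ x = (φ x + φ π * z) - φ π * z := by ring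
        rw [this]
        exact Ideal.sub_mem _ h5 h2
      exact (IsLocalRing.mem_maximalIdeal _).1 h6 h3
    rw [hπ, Ideal.mem_span_singleton'] at hx
    obtain ⟨w, rfl⟩ := hx
    exact ⟨φ w + z, by rw [map_mul]; ring⟩
  · rintro ⟨a, rfl⟩ hu
    exact hφπ (isUnit_of_mul_isUnit_right hu)

section OneDVR

variable (E : NLevel p K) {π : Wb p E.L} (hπ : π ≠ 0) {ι : Type}
  (hg : letI := algAK (padicPlace p) E.leL
    NodalGood (c0.baseChange (Wb p E.L)) π ι)
  {κ : Type} [Field κ]
  (X : letI := algAK (padicPlace p) E.leL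
    ∀ i, Comp (c0.baseChange (Wb p E.L)) (hg.P0 i) (hg.P1 i) κ)
  (hunif : IsLocalRing.maximalIdeal (Wb p E.L) = Ideal.span {π})

include hπ hunif in
/-- `toO π` is a uniformiser of `O_E`. -/
theorem maximalIdeal_O :
    haveI := isDVR_O E.E
    IsLocalRing.maximalIdeal ↥(intSubring p E.E) = Ideal.span {toO E.levL π} := by
  haveI := isDVR_O E.E
  exact maximalIdeal_eq_of_sameFibre (sameFibreO E hπ) hunif

include hπ hunif in
theorem irreducible_toO :
    Irreducible (toO E.levL π) := by
  haveI := isDVR_O E.E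
  exact (IsDiscreteValuationRing.irreducible_iff_uniformizer _).2 (maximalIdeal_O E hπ hunif)

include hunif in
/-- **`J¹ ≤ P00` over `O_E`.** -/
theorem J1_le_P00O :
    letI := algWO E.lev
    haveI := isDVR_O E.E
    J1 c0 ↥(intSubring p E.E) ≤ P00O c0 E hπ hg X := by
  letI := algAK (padicPlace p) E.leL
  letI := algWO E.levL
  letI := algWO E.lev
  haveI := tower_W_OL_OE E.leL E.levL
  haveI := isDVR_O E.E
  exact J1_le_P00_transfer c0 (sameFibre_level E.levL (denseIn_level E) hπ)
    (regular_level E.levL hπ) hg X (maximalIdeal_O E hπ hunif)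

include hunif in
/-- **`ExtInjective00` over `O_E`**: `P00O E → Pic X_E` is injective. -/
theorem extInjective00O [Nonempty ι]
    (hH0 : letI := algWO E.lev
      H0Const (c0.baseChange ↥(intSubring p E.E)))
    (hconn : letI := algAK (padicPlace p) E.leL
      Connected hg) :
    letI := algWO E.lev
    letI := algWE E.lev
    letI := algOE E.E
    haveI := tower_W_O_E E.lev
    haveI := isDVR_O E.E
    ExtInjective00 c0 ↥(intSubring p E.E) ↥E.E (P00O c0 E hπ hg X) := by
  letI := algAK (padicPlace p) E.leL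
  letI := algWO E.levL
  letI := algWO E.lev
  letI := algWE E.lev
  letI := algOE E.E
  haveI := tower_W_OL_OE E.leL E.levL
  haveI := tower_W_O_E E.lev
  haveI := isDVR_O E.E
  haveI := isFractionRing_O_E E.E
  exact extInjective00_transfer c0 (sameFibre_level E.levL (denseIn_level E) hπ)
    (regular_level E.levL hπ) hg X ↥E.E (irreducible_toO E hπ hunif) hH0 hconn

end OneDVR

end Fermat.Agent.T1B.NodalBC53.Family
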