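/-
Programme T1B (S44), brick NODALGOOD-COMPLETION (helper53), file 9: TWO LEVELS `E ≤ E'`
(continuation of `Family.lean`): `bcOO_mem_P00O`, the pairwise form of `Union.Compatible` for the
family `P00O`.
-/
import Mathlib
import Fermat.Agent.T1B.NodalBC53.Family

set_option autoImplicit false
set_option linter.unusedSectionVars false
set_option linter.style.haveILetI false
set_option synthInstance.maxHeartbeats 1000000
set_option maxHeartbeats 20000000

open Fermat.Agent.TW.B5.Iface Fermat.Agent.RED.Interface4 Fermat.Agent.T1.HubInst98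
open Fermat.Agent.T1.LocModel46 Fermat.Agent.T1.IntSub47
open Fermat.Agent.T1B.Local66.LocalBase Fermat.Agent.T1B.Local66.Union
open Fermat.Agent.PT.BR.LocInj13
open Fermat.Agent.Jac Fermat.Agent.Jac.BaseChange75 Fermat.Agent.T1B.RedN3 Fermat.Agent.T1B.Bal60
open Fermat.Agent.T1.RedIface75 Fermat.Agent.T1.Red68
open Fermat.Agent.T1B.NodalBC53.Fibre Fermat.Agent.T1B.NodalBC53.Transfer
  Fermat.Agent.T1B.NodalBC53.Bal Fermat.Agent.T1B.NodalBC53.Tower Fermat.Agent.T1B.NodalBC53.Level
open scoped Fermat.Agent.Jac.BaseChange75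
open scoped TensorProduct

noncomputable section

namespace Fermat.Agent.T1B.NodalBC53.Family

variable {p : ℕ} [Fact p.Prime] {K : IntermediateField ℚ Qbar}
variable {B0 B1 B01 : Type} [CommRing B0] [CommRing B1] [CommRing B01]
  [Algebra (Wb p K) B0] [Algebra (Wb p K) B1] [Algebra (Wb p K) B01] [Algebra B0 B01]
  [Algebra B1 B01] [IsScalarTower (Wb p K) B0 B01] [IsScalarTower (Wb p K) B1 B01]
  [Module.Flat (Wb p K) B0] [Module.Flat (Wb p K) B1] [Module.Flat (Wb p K) B01]
  (c0 : TwoChart (Wb p K) B0 B1 B01)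

/-! ### Two levels -/

section Two

variable {E E' : NLevel p K} (hE : E ≤ E') {π : Wb p E.L} {π' : Wb p E'.L}
  (hπ : π ≠ 0) (hπ' : π' ≠ 0) {ι ι' : Type}
  (hg : letI := algAK (padicPlace p) E.leL
    NodalGood (c0.baseChange (Wb p E.L)) π ι)
  (hg' : letI := algAK (padicPlace p) E'.leL
    NodalGood (c0.baseChange (Wb p E'.L)) π' ι')
  {κ κ' : Type} [Field κ] [Field κ'] [Algebra κ κ']
  (X : letI := algAK (padicPlace p) E.leL
    ∀ i, Comp (c0.baseChange (Wb p E.L)) (hg.P0 i) (hg.P1 i) κ)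
  (X' : letI := algAK (padicPlace p) E'.leL
    ∀ i, Comp (c0.baseChange (Wb p E'.L)) (hg'.P0 i) (hg'.P1 i) κ')

/-- the scalar tower `W = O_K → O_L → O_L'`. -/
theorem tower_AK3 {L L' : IntermediateField ℚ Qbar} (h : K ≤ L) (h' : L ≤ L') :
    letI := algAK (padicPlace p) h
    letI := algAK (padicPlace p) h'
    letI := algAK (padicPlace p) (h.trans h')
    IsScalarTower (Wb p K) (Wb p L) (Wb p L') := by
  letI := algAK (padicPlace p) h
  letI := algAK (padicPlace p) h'
  letI := algAK (padicPlace p) (h.trans h')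
  exact IsScalarTower.of_algebraMap_eq (fun x => (inclAK_trans (padicPlace p) h h' x).symm)

/-- **Pairwise compatibility**: `Union.bcOO c0 hE` maps `P00O E` into `P00O E'`, given the
comparison data between the components at the number-field levels `E.L ≤ E'.L`. -/
theorem bcOO_mem_P00O (f : ι' → ι)
    (bc : letI := algAK (padicPlace p) E.leL
      letI := algAK (padicPlace p) E'.leL
      letI := algAK (padicPlace p) (NLevel.le_def.1 hE)
      haveI := tower_AK3 (p := p) E.leL (NLevel.le_def.1 hE)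
      ∀ i', CompBC (A := Wb p E.L) (R0 := Wb p E.L ⊗[Wb p K] B0) (R1 := Wb p E.L ⊗[Wb p K] B1)
        (R01 := Wb p E.L ⊗[Wb p K] B01) (A' := Wb p E'.L) (R0' := Wb p E'.L ⊗[Wb p K] B0)
        (R1' := Wb p E'.L ⊗[Wb p K] B1) (R01' := Wb p E'.L ⊗[Wb p K] B01)
        (X (f i')) (X' i')) :
    ∀ x : PicO c0 E, x ∈ P00O c0 E hπ hg X →
      (bcOO c0 hE x : PicO c0 E') ∈ P00O c0 E' hπ' hg' X' := by
  letI := algAK (padicPlace p) E.leL
  letI := algAK (padicPlace p) E'.leL
  letI := algAK (padicPlace p) (NLevel.le_def.1 hE)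
  haveI := tower_AK3 (p := p) E.leL (NLevel.le_def.1 hE)
  letI := algWO E.levL
  letI := algWO E'.levL
  letI := algWO E.lev
  letI := algWO E'.lev
  letI := algOO (p := p) (NLevel.E_le hE)
  haveI := tower_W_OL_OE E.leL E.levL
  haveI := tower_W_OL_OE E'.leL E'.levL
  haveI := tower_W_O_O E.lev (NLevel.E_le hE)
  have hsq : ∀ x : Wb p E.L,
      algebraMap ↥(intSubring p E.E) ↥(intSubring p E'.E)
        (algebraMap (Wb p E.L) ↥(intSubring p E.E) x) =
      algebraMap (Wb p E'.L) ↥(intSubring p E'.E) (algebraMap (Wb p E.L) (Wb p E'.L) x) :=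
    fun x => Subtype.ext rfl
  exact map_mem_P00_square c0 hsq
    (sameFibre_level E.levL (denseIn_level E) hπ)
    (sameFibre_level E'.levL (denseIn_level E') hπ')
    (regular_level E.levL hπ) (regular_level E'.levL hπ') hg hg' X X' f bc

end Two

end Fermat.Agent.T1B.NodalBC53.Family
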