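/-
Programme T1B (S44), brick NODALGOOD-COMPLETION (helper53), file 10: THE BUNDLE OVER ALL LEVELS
(continuation of `Family.lean` / `FamilyTwo.lean`; same field names as helper75's `P00Hub75` draft, so
that the concrete instantiation on the hub can be written against it).

`NFData c0` : for every level `E : NLevel p K` (`L = E.L`) a generator `π E` of the maximal ideal of
`O_L = Wb p L`, `NodalGood (c0.baseChange O_L) (π E) (Fin 2)`, its components over a field `κ E`, and
the comparison data `Bal60.CompBC (X E i) (X E' i)` for `E ≤ E'`.  Output: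

* `P00Fam D : ∀ E : NLevel p K, Subgroup (PicO c0 E)`      (multidegree `0` on `X_{O_E}`);
* `compatible_P00Fam D : Union.Compatible c0 (P00Fam D)`     (`hPP`);
* `J1Fam_le_P00Fam D : ∀ E, J1Fam c0 E ≤ P00Fam D E`         (`hJP`);
* `balanced_P00Fam`, `extInjective00_P00Fam` (per level);
* (MD) `mdFam D E : PicO c0 E →* (Fin 2 → Multiplicative ℤ)` (the multidegree on `X_{O_E}`),
  `P00Fam_eq_ker D E : P00Fam D E = (mdFam D E).ker`,
  `mdFam_bcOO D hE x i : mdFam D E' (bcOO c0 hE x) i = mdFam D E x i`;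
  per level (any index type `ι`): `mdO`, `P00O_eq_ker`, `mdO_bcOO`.

These are the first three binders of `Local66.Glue.localGeom_of_fields`.
-/
import Mathlib
import Fermat.Agent.T1B.NodalBC53.FamilyTwo
import Fermat.Agent.T1B.Bridge54.IpUnion

set_option autoImplicit false
set_option linter.unusedSectionVars false
set_option linter.style.haveILetI false
set_option synthInstance.maxHeartbeats 1000000
set_option maxHeartbeats 20000000

open Fermat.Agent.TW.B5.Iface Fermat.Agent.RED.Interface4 Fermat.Agent.T1.HubInst98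
open Fermat.Agent.T1.LocModel46 Fermat.Agent.T1.IntSub47
open Fermat.Agent.T1B.Local66.LocalBase Fermat.Agent.T1B.Local66.Union
open Fermat.Agent.T1B.Bridge54.IpUnion
open Fermat.Agent.PT.BR.LocInj13
open Fermat.Agent.Jac Fermat.Agent.Jac.BaseChange75 Fermat.Agent.T1B.RedN3 Fermat.Agent.T1B.Bal60
open Fermat.Agent.T1.RedIface75 Fermat.Agent.T1.Red68
open Fermat.Agent.T1B.NodalBC53.Fibre Fermat.Agent.T1B.NodalBC53.Transfer
  Fermat.Agent.T1B.NodalBC53.Bal Fermat.Agent.T1B.NodalBC53.Tower Fermat.Agent.T1B.NodalBC53.Level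
open scoped Fermat.Agent.Jac.BaseChange75
open scoped TensorProduct

noncomputable section

namespace Fermat.Agent.T1B.NodalBC53.Family

variable {p : ℕ} [Fact p.Prime] {K : IntermediateField ℚ Qbar}
variable {B0 B1 B01 : Type} [CommRing B0] [CommRing B1] [CommRing B01]
  [Algebra (Wb p K) B0] [Algebra (Wb p K) B1] [Algebra (Wb p K) B01] [Algebra B0 B01]
  [Algebra B1 B01] [IsScalarTower (Wb p K) B0 B01] [IsScalarTower (Wb p K) B1 B01]
  [Module.Flat (Wb p K) B0] [Module.Flat (Wb p K) B1] [Module.Flat (Wb p K) B01]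
  (c0 : TwoChart (Wb p K) B0 B1 B01)

/-- the scalar tower `W = O_K → O_L → O_L'` for two levels `E ≤ E'`. -/
theorem tower_W_OL_OL' {E E' : NLevel p K} (hE : E ≤ E') :
    letI := algAK (padicPlace p) E.leL
    letI := algAK (padicPlace p) E'.leL
    letI := algAK (padicPlace p) (NLevel.le_def.1 hE)
    IsScalarTower (Wb p K) (Wb p E.L) (Wb p E'.L) :=
  tower_AK3 (p := p) E.leL (NLevel.le_def.1 hE)

/-! ### The multidegree over `O_E` -/

section MDOne

variable (E : NLevel p K) {π : Wb p E.L} (hπ : π ≠ 0) {ι : Type}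
  (hg : letI := algAK (padicPlace p) E.leL
    NodalGood (c0.baseChange (Wb p E.L)) π ι)
  {κ : Type} [Field κ]
  (X : letI := algAK (padicPlace p) E.leL
    ∀ i, Comp (c0.baseChange (Wb p E.L)) (hg.P0 i) (hg.P1 i) κ)

/-- **The multidegree on `Pic X_{O_E}`.** -/
def mdO : PicO c0 E →* (ι → Multiplicative ℤ) :=
  letI := algWO E.lev
  Mdeg (hgO c0 E hπ hg) (XO c0 E hπ hg X)

/-- `P00O` is the kernel of the multidegree. -/
theorem P00O_eq_ker : P00O c0 E hπ hg X = (mdO c0 E hπ hg X).ker := by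
  letI := algWO E.lev
  exact P00_eq_ker (hgO c0 E hπ hg) (XO c0 E hπ hg X)

end MDOne

section MDTwo

variable {E E' : NLevel p K} (hE : E ≤ E') {π : Wb p E.L} {π' : Wb p E'.L}
  (hπ : π ≠ 0) (hπ' : π' ≠ 0) {ι ι' : Type}
  (hg : letI := algAK (padicPlace p) E.leL
    NodalGood (c0.baseChange (Wb p E.L)) π ι)
  (hg' : letI := algAK (padicPlace p) E'.leL
    NodalGood (c0.baseChange (Wb p E'.L)) π' ι')
  {κ κ' : Type} [Field κ] [Field κ'] [Algebra κ κ']
  (X : letI := algAK (padicPlace p) E.leL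
    ∀ i, Comp (c0.baseChange (Wb p E.L)) (hg.P0 i) (hg.P1 i) κ)
  (X' : letI := algAK (padicPlace p) E'.leL
    ∀ i, Comp (c0.baseChange (Wb p E'.L)) (hg'.P0 i) (hg'.P1 i) κ')

/-- **The multidegree is compatible with `Union.bcOO`**, given the comparison data between the
components at the number-field levels `E.L ≤ E'.L`. -/
theorem mdO_bcOO (f : ι' → ι)
    (bc : letI := algAK (padicPlace p) E.leL
      letI := algAK (padicPlace p) E'.leL
      letI := algAK (padicPlace p) (NLevel.le_def.1 hE)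
      haveI := tower_AK3 (p := p) E.leL (NLevel.le_def.1 hE)
      ∀ i', CompBC (A := Wb p E.L) (R0 := Wb p E.L ⊗[Wb p K] B0) (R1 := Wb p E.L ⊗[Wb p K] B1)
        (R01 := Wb p E.L ⊗[Wb p K] B01) (A' := Wb p E'.L) (R0' := Wb p E'.L ⊗[Wb p K] B0)
        (R1' := Wb p E'.L ⊗[Wb p K] B1) (R01' := Wb p E'.L ⊗[Wb p K] B01)
        (X (f i')) (X' i'))
    (x : PicO c0 E) (i' : ι') :
    mdO c0 E' hπ' hg' X' (bcOO c0 hE x : PicO c0 E') i' = mdO c0 E hπ hg X x (f i') := by
  letI := algAK (padicPlace p) E.leL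
  letI := algAK (padicPlace p) E'.leL
  letI := algAK (padicPlace p) (NLevel.le_def.1 hE)
  haveI := tower_AK3 (p := p) E.leL (NLevel.le_def.1 hE)
  letI := algWO E.levL
  letI := algWO E'.levL
  letI := algWO E.lev
  letI := algWO E'.lev
  letI := algOO (p := p) (NLevel.E_le hE)
  haveI := tower_W_OL_OE E.leL E.levL
  haveI := tower_W_OL_OE E'.leL E'.levL
  haveI := tower_W_O_O E.lev (NLevel.E_le hE)
  have hsq : ∀ x : Wb p E.L,
      algebraMap ↥(intSubring p E.E) ↥(intSubring p E'.E)
        (algebraMap (Wb p E.L) ↥(intSubring p E.E) x) =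
      algebraMap (Wb p E'.L) ↥(intSubring p E'.E) (algebraMap (Wb p E.L) (Wb p E'.L) x) :=
    fun x => Subtype.ext rfl
  exact Mdeg_map_square c0 hsq
    (sameFibre_level E.levL (denseIn_level E) hπ)
    (sameFibre_level E'.levL (denseIn_level E') hπ')
    (regular_level E.levL hπ) (regular_level E'.levL hπ') hg hg' X X' f bc x i'

end MDTwo

/-! ### The bundle -/

/-- **The number-field-level data of the family `P00`**: for every level `E` (`L = E.L`), a
generator `π E` of the maximal ideal of `O_L = Wb p L`, `NodalGood` for `c0.baseChange O_L`, its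
components over a field `κ E`, and the comparison data for `E ≤ E'`. -/
structure NFData where
  π : ∀ E : NLevel p K, Wb p E.L
  hmax : ∀ E, IsLocalRing.maximalIdeal (Wb p E.L) = Ideal.span {π E}
  hπ : ∀ E, π E ≠ 0
  hg : ∀ E : NLevel p K, letI := algAK (padicPlace p) E.leL
    NodalGood (c0.baseChange (Wb p E.L)) (π E) (Fin 2)
  κ : NLevel p K → Type
  fieldκ : ∀ E, Field (κ E)
  algκ : ∀ E E' : NLevel p K, E ≤ E' → Algebra (κ E) (κ E')
  X : ∀ E : NLevel p K, letI := algAK (padicPlace p) E.leL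
    letI := fieldκ E
    ∀ i, Comp (c0.baseChange (Wb p E.L)) ((hg E).P0 i) ((hg E).P1 i) (κ E)
  bc : ∀ (E E' : NLevel p K) (hE : E ≤ E'),
    letI := algAK (padicPlace p) E.leL
    letI := algAK (padicPlace p) E'.leL
    letI := algAK (padicPlace p) (NLevel.le_def.1 hE)
    haveI := tower_W_OL_OL' hE
    letI := fieldκ E
    letI := fieldκ E'
    letI := algκ E E' hE
    ∀ i, CompBC (A := Wb p E.L) (R0 := Wb p E.L ⊗[Wb p K] B0) (R1 := Wb p E.L ⊗[Wb p K] B1)
      (R01 := Wb p E.L ⊗[Wb p K] B01) (A' := Wb p E'.L) (R0' := Wb p E'.L ⊗[Wb p K] B0)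
      (R1' := Wb p E'.L ⊗[Wb p K] B1) (R01' := Wb p E'.L ⊗[Wb p K] B01)
      (X E i) (X E' i)

variable {c0}

/-- **The family `P00`.** -/
def P00Fam (D : NFData c0) (E : NLevel p K) : Subgroup (PicO c0 E) :=
  letI := D.fieldκ E
  P00O c0 E (D.hπ E) (D.hg E) (D.X E)

/-- **`hPP`**: the family `P00` is compatible with base change. -/
theorem compatible_P00Fam (D : NFData c0) : Compatible c0 (P00Fam D) := by
  intro E E' hE x hx
  letI := D.fieldκ E
  letI := D.fieldκ E'
  letI := D.algκ E E' hE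
  exact bcOO_mem_P00O c0 hE (D.hπ E) (D.hπ E') (D.hg E) (D.hg E') (D.X E) (D.X E') id
    (D.bc E E' hE) x hx

/-- **`hJP`**: `J̃¹(O_E) ≤ P00(O_E)`. -/
theorem J1Fam_le_P00Fam (D : NFData c0) (E : NLevel p K) : J1Fam c0 E ≤ P00Fam D E := by
  letI := D.fieldκ E
  exact J1_le_P00O c0 E (D.hπ E) (D.hg E) (D.X E) (D.hmax E)

/-- `Balanced` for the family, per level. -/
theorem balanced_P00Fam (D : NFData c0) (E : NLevel p K)
    (hconn : letI := algAK (padicPlace p) E.leL
      Connected (D.hg E)) :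
    letI := algWO E.lev
    Balanced c0 ↥(intSubring p E.E) (hgO c0 E (D.hπ E) (D.hg E)) (P00Fam D E) := by
  letI := D.fieldκ E
  exact balancedO c0 E (D.hπ E) (D.hg E) (D.X E) hconn

/-- `ExtInjective00` for the family, per level: `P00Fam D E → Pic X_E` is injective. -/
theorem extInjective00_P00Fam (D : NFData c0) (E : NLevel p K)
    (hH0 : letI := algWO E.lev
      H0Const (c0.baseChange ↥(intSubring p E.E)))
    (hconn : letI := algAK (padicPlace p) E.leL
      Connected (D.hg E)) :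
    letI := algWO E.lev
    letI := algWE E.lev
    letI := algOE E.E
    haveI := tower_W_O_E E.lev
    haveI := isDVR_O E.E
    ExtInjective00 c0 ↥(intSubring p E.E) ↥E.E (P00Fam D E) := by
  letI := D.fieldκ E
  exact extInjective00O c0 E (D.hπ E) (D.hg E) (D.X E) (D.hmax E) hH0 hconn

/-- **(MD) The multidegree of the family.** -/
def mdFam (D : NFData c0) (E : NLevel p K) : PicO c0 E →* (Fin 2 → Multiplicative ℤ) :=
  letI := D.fieldκ E
  mdO c0 E (D.hπ E) (D.hg E) (D.X E)

/-- **(MD)** `P00Fam D E` is the kernel of the multidegree. -/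
theorem P00Fam_eq_ker (D : NFData c0) (E : NLevel p K) : P00Fam D E = (mdFam D E).ker := by
  letI := D.fieldκ E
  exact P00O_eq_ker c0 E (D.hπ E) (D.hg E) (D.X E)

theorem mem_P00Fam_iff (D : NFData c0) (E : NLevel p K) (x : PicO c0 E) :
    x ∈ P00Fam D E ↔ mdFam D E x = 1 := by
  rw [P00Fam_eq_ker, MonoidHom.mem_ker]

/-- **(MD)** the multidegree is compatible with base change between the levels. -/
theorem mdFam_bcOO (D : NFData c0) {E E' : NLevel p K} (hE : E ≤ E') (x : PicO c0 E) (i : Fin 2) :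
    mdFam D E' (bcOO c0 hE x) i = mdFam D E x i := by
  letI := D.fieldκ E
  letI := D.fieldκ E'
  letI := D.algκ E E' hE
  exact mdO_bcOO c0 hE (D.hπ E) (D.hπ E') (D.hg E) (D.hg E') (D.X E) (D.X E') id
    (D.bc E E' hE) x i

end Fermat.Agent.T1B.NodalBC53.Family
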