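/-
Programme T1B (S44), brick NODALGOOD-COMPLETION (helper53), file 7: EVERY FINITE LEVEL IS GLOBAL.

Krasner with degree bookkeeping (refinement of `PT.BR.LocInj13.exists_mem_adjoin_padicEmbedding`,
whose proof is followed line by line):

* `exists_adjoin_eq a` : for `a ∈ ℚ̄_p` there is `β ∈ ℚ̄` with `ℚ_p(a) = ℚ_p(ι β)`;
* `exists_numField_level` : every finite level `E ⊇ ι K` (`K` a number field) is
  `localField p L = ℚ_p(ι L)` for a number field `L ⊇ K`; hence (`Level.denseIn_localField`) `ι L` is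
  dense in `E` and `NodalGood`, `P00`, … over `O_E` are obtained from the level `AK A L` by
  `Level.nodalGood_level`.
-/
import Mathlib
import Fermat.Agent.PT.BR.LocInj13

set_option autoImplicit false
set_option linter.unusedSectionVars false

open Polynomial IntermediateField

namespace Fermat.Agent.T1B.NodalBC53.Krasner

open Fermat.Agent.PT.BR.LocInj13

variable (q : ℕ) [Fact q.Prime]

/-- **Krasner approximation with equality**: `ℚ_q(a) = ℚ_q(ι β)` for some `β ∈ ℚ̄`. -/
theorem exists_adjoin_eq (a : PadicAlgCl q) :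
    ∃ β : AlgebraicClosure ℚ, ℚ_[q]⟮a⟯ = ℚ_[q]⟮padicEmbedding q β⟯ := by
  classical
  set f : ℚ_[q][X] := minpoly ℚ_[q] a with hf
  have hint : IsIntegral ℚ_[q] a := Algebra.IsIntegral.isIntegral a
  have fmon : f.Monic := minpoly.monic hint
  have fa0 : f.aeval a = 0 := minpoly.aeval _ _
  have fnatdeg0 : f.natDegree ≠ 0 := (minpoly.natDegree_pos hint).ne'
  let S : Finset (PadicAlgCl q) := {x ∈ (f.rootSet (PadicAlgCl q)).toFinset | x ≠ a}
  let δ : ℝ := if hS : S.Nonempty then Finset.min' (S.image fun x => ‖a - x‖)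
      (Finset.image_nonempty.mpr hS) else 1
  have norm_sub_le : ∀ a' : PadicAlgCl q, IsConjRoot ℚ_[q] a a' → a ≠ a' → δ ≤ ‖a - a'‖ := by
    intro a' conj ne
    by_cases hS : S.Nonempty <;> simp only [hS, ↓reduceDIte, δ]
    · apply Finset.min'_le (S.image fun x => ‖a - x‖) (‖a - a'‖)
      apply Finset.mem_image_of_mem
      simp only [Finset.mem_filter, Set.mem_toFinset, S]
      rw [hf, ← (isConjRoot_iff_mem_minpoly_rootSet hint)]
      exact ⟨conj, ne.symm⟩
    · simp only [ne_eq, Finset.not_nonempty_iff_eq_empty, Finset.filter_eq_empty_iff,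
        Set.mem_toFinset, not_not, S] at hS
      rw [isConjRoot_iff_mem_minpoly_rootSet hint] at conj
      exact (ne (hS conj).symm).elim
  have δpos : δ > 0 := by
    by_cases hS : S.Nonempty <;> simp only [hS, ↓reduceDIte, δ]
    · simp only [gt_iff_lt, Finset.lt_min'_iff, Finset.mem_image, forall_exists_index, and_imp,
        forall_apply_eq_imp_iff₂]
      rintro a' ha'
      simp only [Finset.mem_filter, Set.mem_toFinset, S] at ha'
      rw [norm_pos_iff, sub_ne_zero]
      exact ha'.2.symm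
    · linarith
  have hε : (δ / (max ‖a‖ 1)) ^ f.natDegree / (f.natDegree + 1) > 0 := by positivity
  have hd : DenseRange (algebraMap ℚ ℚ_[q]) := by
    have : (algebraMap ℚ ℚ_[q] : ℚ → ℚ_[q]) = ((↑) : ℚ → ℚ_[q]) := by
      funext r; simp
    rw [this]; exact Padic.denseRange_ratCast q
  obtain ⟨g, gmon, gdeg, gcoeff⟩ :=
    exists_monic_and_natDegree_eq_and_norm_map_algebraMap_coeff_sub_lt hd fmon hε
  obtain ⟨b, hb, hab⟩ := exists_aroots_norm_sub_lt_of_norm_coeff_sub_lt (L := PadicAlgCl q)
      hε fa0 fmon (gmon.map _) (gdeg ▸ (g.natDegree_map _)) gcoeff (IsAlgClosed.splits _)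
  have hab : ‖a - b‖ < δ := by
    rw [← Real.rpow_natCast, ← mul_comm_div, div_self, one_mul,
        ← Real.rpow_mul (div_pos δpos (by positivity)).le, mul_inv_cancel₀] at hab
    · simpa [mul_assoc, div_mul_cancel₀ _ (by positivity : (max ‖a‖ 1) > 0).ne'] using hab
    · simp [fnatdeg0]
    · positivity
  simp only [Polynomial.mem_roots', ne_eq, Polynomial.map_eq_zero, Polynomial.IsRoot.def,
    Polynomial.eval_map_algebraMap] at hb
  -- `b` is algebraic over `ℚ`
  have hbint : IsIntegral ℚ b := by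
    refine ⟨g, gmon, ?_⟩
    have := hb.2
    rwa [Polynomial.aeval_map_algebraMap] at this
  obtain ⟨β, hβ⟩ := exists_padicEmbedding_eq_of_isIntegral q hbint
  refine ⟨β, ?_⟩
  rw [hβ]
  have masp : ((minpoly ℚ_[q] a).map (algebraMap ℚ_[q] (PadicAlgCl q))).Splits :=
    IsAlgClosed.splits _
  have hmem : a ∈ ℚ_[q]⟮b⟯ :=
    IsKrasner.krasner (minpoly.irreducible hint).separable masp
      (Algebra.IsIntegral.isIntegral b)
      fun a' h1 h2 ↦ lt_of_lt_of_le hab (norm_sub_le a' h1 h2)
  -- degrees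
  have hbint' : IsIntegral ℚ_[q] b := Algebra.IsIntegral.isIntegral b
  have hle : ℚ_[q]⟮a⟯ ≤ ℚ_[q]⟮b⟯ := by
    rw [IntermediateField.adjoin_simple_le_iff]
    exact hmem
  have hdeg : (minpoly ℚ_[q] b).natDegree ≤ f.natDegree := by
    have h1 : minpoly ℚ_[q] b ∣ g.map (algebraMap ℚ ℚ_[q]) := minpoly.dvd _ _ hb.2
    have h2 := Polynomial.natDegree_le_of_dvd h1 (gmon.map _).ne_zero
    rw [Polynomial.natDegree_map] at h2
    rw [gdeg]
    exact h2
  have hfin : Module.finrank ℚ_[q] ℚ_[q]⟮b⟯ ≤ Module.finrank ℚ_[q] ℚ_[q]⟮a⟯ := by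
    rw [IntermediateField.adjoin.finrank hbint', IntermediateField.adjoin.finrank hint]
    exact hdeg
  have : FiniteDimensional ℚ_[q] ℚ_[q]⟮b⟯ := IntermediateField.adjoin.finiteDimensional hbint'
  exact IntermediateField.eq_of_le_of_finrank_le hle hfin

/-- **Every finite level is global**: a finite extension `E` of `ℚ_q` inside `ℚ̄_q` containing
`ι K` (`K` a number field) is `ℚ_q(ι L)` for a number field `L ⊇ K`. -/
theorem exists_numField_level (K : IntermediateField ℚ (AlgebraicClosure ℚ))
    [FiniteDimensional ℚ K] (E : IntermediateField ℚ_[q] (PadicAlgCl q))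
    [FiniteDimensional ℚ_[q] E] (hK : ∀ x ∈ K, padicEmbedding q x ∈ E) :
    ∃ L : IntermediateField ℚ (AlgebraicClosure ℚ), FiniteDimensional ℚ L ∧ K ≤ L ∧
      localField q L = E := by
  classical
  obtain ⟨t, ht⟩ := fg_of_finiteDimensional E
  choose β hβ using exists_adjoin_eq q
  let L₀ : IntermediateField ℚ (AlgebraicClosure ℚ) :=
    IntermediateField.adjoin ℚ ((t.image β : Finset _) : Set (AlgebraicClosure ℚ))
  have hL₀ : FiniteDimensional ℚ L₀ := by
    have : Finite ((t.image β : Finset _) : Set (AlgebraicClosure ℚ)) :=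
      (Finset.finite_toSet _).to_subtype
    exact IntermediateField.finiteDimensional_adjoin fun x _ =>
      (AlgebraicClosure.isAlgebraic ℚ).isIntegral.isIntegral x
  refine ⟨L₀ ⊔ K, IntermediateField.finiteDimensional_sup L₀ K, le_sup_right, ?_⟩
  apply le_antisymm
  · -- `ι (L₀ ⊔ K) ⊆ E`
    rw [localField, IntermediateField.adjoin_le_iff]
    rintro _ ⟨x, hx, rfl⟩
    let P : IntermediateField ℚ (AlgebraicClosure ℚ) :=
      (E.restrictScalars ℚ).comap (padicEmbedding q)
    have hP : L₀ ⊔ K ≤ P := by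
      refine sup_le ?_ (fun y hy => hK y hy)
      rw [IntermediateField.adjoin_le_iff]
      intro y hy
      simp only [Finset.coe_image, Set.mem_image, Finset.mem_coe] at hy
      obtain ⟨a, ha, rfl⟩ := hy
      show padicEmbedding q (β a) ∈ E
      have h1 : padicEmbedding q (β a) ∈ ℚ_[q]⟮a⟯ := by
        rw [hβ a]
        exact IntermediateField.mem_adjoin_simple_self _ _
      have h2 : ℚ_[q]⟮a⟯ ≤ E := by
        rw [IntermediateField.adjoin_simple_le_iff, ← ht]
        exact IntermediateField.subset_adjoin _ _ ha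
      exact h2 h1
    exact hP hx
  · rw [← ht, IntermediateField.adjoin_le_iff]
    intro a ha
    have h1 : ℚ_[q]⟮padicEmbedding q (β a)⟯ ≤ localField q (L₀ ⊔ K) := by
      rw [IntermediateField.adjoin_simple_le_iff]
      refine padicEmbedding_mem_localField q ?_
      refine (le_sup_left : L₀ ≤ L₀ ⊔ K) (IntermediateField.subset_adjoin _ _ ?_)
      simp only [Finset.coe_image, Set.mem_image, Finset.mem_coe]
      exact ⟨a, ha, rfl⟩
    apply h1
    rw [← hβ a]
    exact IntermediateField.mem_adjoin_simple_self _ _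

end Fermat.Agent.T1B.NodalBC53.Krasner
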